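import Mathlib
import Fermat.Prelude.Def_FLTPrelim_ModularRep
import Fermat.Prelude.Def_FLTPrelim_Modularity

/-!
# S51 — interface between the tracks (owner: helper7)

`W : WeierstrassCurve ℤ`, `Wq := W.map (Int.castRingHom ℚ)`, `E := Wq⁄Q̄`.
Strategy: if both `E[3]` and `E[5]` are reducible there are Galois-stable cyclic subgroups
`C₃`, `C₅`; they give `h s : ℚ` with `j = (h+27)(h+3)³/h = (s²+10s+5)³/s` (Fricke parametrisations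
of `X₀(3)`, `X₀(5)`), i.e. a rational point of `X₀(15)`; `X₀(15)(ℚ)` is known (rank 0), and none of
the four resulting `j`-invariants belongs to a semistable curve (look at `5`).

All targets are plain `Prop`s; each track proves `theorem FA_S51_xxx : FA_S51_Target_xxx`.
-/

set_option autoImplicit false

open WeierstrassCurve

namespace Fermat.Agent.S51

/-- `B₄(x) = b₄ + b₂ x + 6 x²` (the `b₄` of the curve translated by `x`). -/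
def FA_S51_B4 {F : Type*} [CommRing F] (W : WeierstrassCurve F) (x : F) : F :=
  W.b₄ + W.b₂ * x + 6 * x ^ 2

/-- `B₂(x) = b₂ + 12 x`. -/
def FA_S51_B2 {F : Type*} [CommRing F] (W : WeierstrassCurve F) (x : F) : F :=
  W.b₂ + 12 * x

/-- `B₆(x) = Ψ₂Sq(x) = b₆ + 2 b₄ x + b₂ x² + 4 x³`. -/
def FA_S51_B6 {F : Type*} [CommRing F] (W : WeierstrassCurve F) (x : F) : F :=
  W.b₆ + 2 * W.b₄ * x + W.b₂ * x ^ 2 + 4 * x ^ 3

/-- `B₈(x) = Ψ₃(x) = b₈ + 3 b₆ x + 3 b₄ x² + b₂ x³ + 3 x⁴`. -/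
def FA_S51_B8 {F : Type*} [CommRing F] (W : WeierstrassCurve F) (x : F) : F :=
  W.b₈ + 3 * W.b₆ * x + 3 * W.b₄ * x ^ 2 + W.b₂ * x ^ 3 + 3 * x ^ 4

/-- The `5`-division polynomial (up to sign) in translated form:
`F₅ = B₈³ − B₄ B₆² B₈ + B₆⁴`, a polynomial of degree `12` in `x` with leading coefficient `-5`. -/
def FA_S51_F5 {F : Type*} [CommRing F] (W : WeierstrassCurve F) (x : F) : F :=
  FA_S51_B8 W x ^ 3 - FA_S51_B4 W x * FA_S51_B6 W x ^ 2 * FA_S51_B8 W x + FA_S51_B6 W x ^ 4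

/-- TRACK X (rational points of `X₀(15)`), quartic model `W² = (T²−T−1)(T²+11T−1)`. -/
def FA_S51_Target_Quartic : Prop :=
  ∀ T W : ℚ, W ^ 2 = (T ^ 2 - T - 1) * (T ^ 2 + 11 * T - 1) → T = 0 ∨ T = 2 ∨ T = -1 / 2

/-- TRACK L (link `(h, s) ↦ T`): a rational point of the fibre product `X₀(3) ×_j X₀(5)` has
`s ∈ {−10, −25/2, −40, −25/8}`. -/
def FA_S51_Target_X15 : Prop :=
  ∀ h s : ℚ, h ≠ 0 → s ≠ 0 → (h + 27) * (h + 3) ^ 3 * s = (s ^ 2 + 10 * s + 5) ^ 3 * h →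
    s = -10 ∨ s = -25 / 2 ∨ s = -40 ∨ s = -25 / 8

/-- TRACK S (semistability): no semistable integral model has `c₄ = 0` or one of the four
exceptional `j`-invariants `j = (s²+10s+5)³/s`, `s ∈ {−10, −25/2, −40, −25/8}`. -/
def FA_S51_Target_Semistable : Prop :=
  ∀ W : WeierstrassCurve ℤ, W.Δ ≠ 0 → W.IsSemistableModel →
    W.c₄ ≠ 0 ∧ ∀ s : ℚ, (s = -10 ∨ s = -25 / 2 ∨ s = -40 ∨ s = -25 / 8) →
      (W.c₄ : ℚ) ^ 3 * s ≠ (s ^ 2 + 10 * s + 5) ^ 3 * (W.Δ : ℚ)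

/-- TRACK R3 (+T3): a reducible mod-3 representation gives a rational root of `Ψ₃`. -/
def FA_S51_Target_R3 : Prop :=
  ∀ W : WeierstrassCurve ℤ, W.Δ ≠ 0 → ¬ W.ModRepIsIrreducible 3 →
    ∃ x₀ : ℚ, FA_S51_B8 (W.map (Int.castRingHom ℚ)) x₀ = 0

/-- TRACK P3: a rational root of `Ψ₃` gives a rational point of `X₀(3)` above `j`. -/
def FA_S51_Target_P3 : Prop :=
  ∀ W : WeierstrassCurve ℚ, W.Δ ≠ 0 → ∀ x₀ : ℚ, FA_S51_B8 W x₀ = 0 →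
    W.c₄ = 0 ∨ ∃ h : ℚ, h ≠ 0 ∧ W.c₄ ^ 3 * h = (h + 27) * (h + 3) ^ 3 * W.Δ

/-- TRACK R5 (+T5, P5): a reducible mod-5 representation gives a rational point of `X₀(5)`
above `j`. -/
def FA_S51_Target_R5 : Prop :=
  ∀ W : WeierstrassCurve ℤ, W.Δ ≠ 0 → ¬ W.ModRepIsIrreducible 5 →
    ∃ s : ℚ, s ≠ 0 ∧ ((W.c₄ : ℤ) : ℚ) ^ 3 * s = (s ^ 2 + 10 * s + 5) ^ 3 * ((W.Δ : ℤ) : ℚ)

/-- Glue: the targets imply S51. -/
theorem FA_S51_of_targets (hX : FA_S51_Target_X15) (hS : FA_S51_Target_Semistable)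
    (h3 : FA_S51_Target_R3) (hP3 : FA_S51_Target_P3) (h5 : FA_S51_Target_R5)
    (W : WeierstrassCurve ℤ) (hΔ : W.Δ ≠ 0) (hW : W.IsSemistableModel) :
    W.ModRepIsIrreducible 3 ∨ W.ModRepIsIrreducible 5 := by
  by_contra hcon
  rw [not_or] at hcon
  obtain ⟨hc4, hss⟩ := hS W hΔ hW
  obtain ⟨x₀, hx₀⟩ := h3 W hΔ hcon.1
  obtain ⟨s, hs0, hs⟩ := h5 W hΔ hcon.2
  have hΔq : (W.map (Int.castRingHom ℚ)).Δ ≠ 0 := by
    rw [WeierstrassCurve.map_Δ]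
    simpa using hΔ
  have hc4q : (W.map (Int.castRingHom ℚ)).c₄ = ((W.c₄ : ℤ) : ℚ) := by
    rw [WeierstrassCurve.map_c₄]; rfl
  have hΔq' : (W.map (Int.castRingHom ℚ)).Δ = ((W.Δ : ℤ) : ℚ) := by
    rw [WeierstrassCurve.map_Δ]; rfl
  rcases hP3 _ hΔq x₀ hx₀ with h0 | ⟨h, hh0, hh⟩
  · rw [hc4q] at h0
    exact hc4 (by exact_mod_cast h0)
  · rw [hc4q, hΔq'] at hh
    have hΔ' : ((W.Δ : ℤ) : ℚ) ≠ 0 := by exact_mod_cast hΔ
    have key : (h + 27) * (h + 3) ^ 3 * s = (s ^ 2 + 10 * s + 5) ^ 3 * h := by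
      have e1 : ((h + 27) * (h + 3) ^ 3 * s) * ((W.Δ : ℤ) : ℚ) =
          ((s ^ 2 + 10 * s + 5) ^ 3 * h) * ((W.Δ : ℤ) : ℚ) := by
        linear_combination (-s) * hh + h * hs
      exact mul_right_cancel₀ hΔ' e1
    exact hss s (hX h s hh0 hs0 key) hs

end Fermat.Agent.S51
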