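import Mathlib
import Fermat.Agent.S51.Interface

/-!
# S51 — interface, part 2: torsion tracks (owner: helper7)

Generic statements about `3`- and `5`-torsion of an elliptic curve in Weierstrass form over a field,
phrased with the translated invariants `B₂, B₄, B₆, B₈` of `Interface.lean`.
-/

set_option autoImplicit false

open WeierstrassCurve WeierstrassCurve.Affine

namespace Fermat.Agent.S51

/-- TRACK T2: doubling in `b`-form. For an affine point `P = (x, y)`: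
`B₆(x) = (y − negY)²`; `2P = 0 ↔ B₆(x) = 0`; otherwise `x(2P) = x − B₈(x)/B₆(x)`. -/
def FA_S51_Target_T2 : Prop :=
  ∀ (F : Type) [Field F] [DecidableEq F] (E : WeierstrassCurve.Affine F) (x y : F)
    (h : E.Nonsingular x y),
    FA_S51_B6 E x = (y - E.negY x y) ^ 2 ∧
    ((2 : ℤ) • (Affine.Point.some x y h) = 0 ↔ FA_S51_B6 E x = 0) ∧
    (FA_S51_B6 E x ≠ 0 → ∃ (y' : F) (h' : E.Nonsingular (x - FA_S51_B8 E x / FA_S51_B6 E x) y'),
      (2 : ℤ) • (Affine.Point.some x y h) =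
        Affine.Point.some (x - FA_S51_B8 E x / FA_S51_B6 E x) y' h')

/-- TRACK T3: `3`-torsion. `3P = 0 ↔ B₈(x) = 0` for affine `P` (needs `Δ ≠ 0`). -/
def FA_S51_Target_T3 : Prop :=
  ∀ (F : Type) [Field F] [DecidableEq F] (E : WeierstrassCurve.Affine F), E.Δ ≠ 0 →
    ∀ (x y : F) (h : E.Nonsingular x y),
      ((3 : ℤ) • (Affine.Point.some x y h) = 0 ↔ FA_S51_B8 E x = 0)

/-- TRACK T5: `5`-torsion. `5P = 0 ↔ F₅(x) = 0` for affine `P` (needs `Δ ≠ 0`). -/
def FA_S51_Target_T5 : Prop :=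
  ∀ (F : Type) [Field F] [DecidableEq F] (E : WeierstrassCurve.Affine F), E.Δ ≠ 0 →
    ∀ (x y : F) (h : E.Nonsingular x y),
      ((5 : ℤ) • (Affine.Point.some x y h) = 0 ↔ FA_S51_F5 E x = 0)

/-- The `X₀(5)`-parameter of a point of order `5` with `x`-coordinate `x`:
`s = t − 1/t − 11`, `t = −B₈³/B₆⁴` (Tate normal form parameter). -/
noncomputable def FA_S51_sParam {F : Type*} [Field F] (E : WeierstrassCurve F) (x : F) : F :=
  -(FA_S51_B8 E x ^ 3 / FA_S51_B6 E x ^ 4) + FA_S51_B6 E x ^ 4 / FA_S51_B8 E x ^ 3 - 11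

/-- TRACK P5 (Tate normal form): for a root `x` of `F₅` on a curve with `Δ ≠ 0`:
`B₆(x), B₈(x) ≠ 0`, `s ≠ 0`, the `j`-relation `c₄³ s = (s²+10s+5)³ Δ`, and `s` is the same at
`x₂ = x − B₈/B₆ = x(2P)` (which is again a root of `F₅`). -/
def FA_S51_Target_P5 : Prop :=
  ∀ (F : Type) [Field F] (E : WeierstrassCurve F), E.Δ ≠ 0 → ∀ x : F, FA_S51_F5 E x = 0 →
    FA_S51_B6 E x ≠ 0 ∧ FA_S51_B8 E x ≠ 0 ∧ FA_S51_sParam E x ≠ 0 ∧
    E.c₄ ^ 3 * FA_S51_sParam E x =
      (FA_S51_sParam E x ^ 2 + 10 * FA_S51_sParam E x + 5) ^ 3 * E.Δ ∧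
    FA_S51_F5 E (x - FA_S51_B8 E x / FA_S51_B6 E x) = 0 ∧
    FA_S51_sParam E (x - FA_S51_B8 E x / FA_S51_B6 E x) = FA_S51_sParam E x

/-- TRACK C (counting): over an algebraically closed field of characteristic `0`, with `Δ ≠ 0`,
`E[3]` and `E[5]` are nontrivial, finite, of cardinality at most `9`, resp. `25`.
(From T3/T5: the `x`-coordinates of nonzero `p`-torsion points are roots of `B₈`, resp. `F₅`,
polynomials in `x` of degree `4`, resp. `12`; at most two points share an `x`-coordinate.) -/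
def FA_S51_Target_Count : Prop :=
  ∀ (F : Type) [Field F] [DecidableEq F] [IsAlgClosed F] [CharZero F]
    (E : WeierstrassCurve.Affine F), E.Δ ≠ 0 →
    (Nontrivial (Submodule.torsionBy ℤ E.Point 3) ∧ Finite (Submodule.torsionBy ℤ E.Point 3) ∧
      Nat.card (Submodule.torsionBy ℤ E.Point 3) ≤ 9) ∧
    (Nontrivial (Submodule.torsionBy ℤ E.Point 5) ∧ Finite (Submodule.torsionBy ℤ E.Point 5) ∧
      Nat.card (Submodule.torsionBy ℤ E.Point 5) ≤ 25)

/-- TRACK RED (pure group theory + prelude definitions): if `E[p]` is nontrivial with at most `p²`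
elements and the mod-`p` representation is not irreducible, there is a point `P ≠ 0` of order `p`
whose Galois conjugates are all multiples of `P`. -/
def FA_S51_Target_Red : Prop :=
  ∀ (p : ℕ), p.Prime → ∀ (W' : WeierstrassCurve.Affine ℚ),
    Nontrivial (Submodule.torsionBy ℤ (W'⁄(AlgebraicClosure ℚ)).Point p) →
    Finite (Submodule.torsionBy ℤ (W'⁄(AlgebraicClosure ℚ)).Point p) →
    Nat.card (Submodule.torsionBy ℤ (W'⁄(AlgebraicClosure ℚ)).Point p) ≤ p ^ 2 →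
    ¬ WeierstrassCurve.Affine.Point.GaloisRepIsIrreducible (K := AlgebraicClosure ℚ) ℚ W' p →
    ∃ P : (W'⁄(AlgebraicClosure ℚ)).Point, P ≠ 0 ∧ (p : ℤ) • P = 0 ∧
      ∀ σ : AlgebraicClosure ℚ ≃ₐ[ℚ] AlgebraicClosure ℚ, ∃ k : ℤ, σ • P = k • P

end Fermat.Agent.S51
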