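import Mathlib
import Fermat.Agent.S51.Interface2

/-!
# S51, track P5: Tate normal form for a point of order `5`, in translated `b`-invariants
-/

set_option autoImplicit false

open WeierstrassCurve

namespace Fermat.Agent.S51

section identities

variable {F : Type*} [CommRing F] (E : WeierstrassCurve F) (x δ : F)

theorem FA_S51_B_relation :
    4 * FA_S51_B8 E x = FA_S51_B2 E x * FA_S51_B6 E x - FA_S51_B4 E x ^ 2 := by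
  simp only [FA_S51_B2, FA_S51_B4, FA_S51_B6, FA_S51_B8, WeierstrassCurve.b₂, WeierstrassCurve.b₄,
    WeierstrassCurve.b₆, WeierstrassCurve.b₈]
  ring

theorem FA_S51_c4_eq : E.c₄ = FA_S51_B2 E x ^ 2 - 24 * FA_S51_B4 E x := by
  simp only [FA_S51_B2, FA_S51_B4, WeierstrassCurve.c₄, WeierstrassCurve.b₂, WeierstrassCurve.b₄]
  ring

theorem FA_S51_Δ_eq : E.Δ = -FA_S51_B2 E x ^ 2 * FA_S51_B8 E x - 8 * FA_S51_B4 E x ^ 3
    - 27 * FA_S51_B6 E x ^ 2 + 9 * FA_S51_B2 E x * FA_S51_B4 E x * FA_S51_B6 E x := by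
  simp only [FA_S51_B2, FA_S51_B4, FA_S51_B6, FA_S51_B8, WeierstrassCurve.Δ, WeierstrassCurve.b₂,
    WeierstrassCurve.b₄, WeierstrassCurve.b₆, WeierstrassCurve.b₈]
  ring

theorem FA_S51_B4_add : FA_S51_B4 E (x + δ) = FA_S51_B4 E x + FA_S51_B2 E x * δ + 6 * δ ^ 2 := by
  simp only [FA_S51_B2, FA_S51_B4]; ring

theorem FA_S51_B6_add : FA_S51_B6 E (x + δ) =
    FA_S51_B6 E x + 2 * FA_S51_B4 E x * δ + FA_S51_B2 E x * δ ^ 2 + 4 * δ ^ 3 := by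
  simp only [FA_S51_B2, FA_S51_B4, FA_S51_B6]; ring

theorem FA_S51_B8_add : FA_S51_B8 E (x + δ) =
    FA_S51_B8 E x + 3 * FA_S51_B6 E x * δ + 3 * FA_S51_B4 E x * δ ^ 2 + FA_S51_B2 E x * δ ^ 3
      + 3 * δ ^ 4 := by
  simp only [FA_S51_B2, FA_S51_B4, FA_S51_B6, FA_S51_B8]; ring

end identities

section field

variable {F : Type*} [Field F] (E : WeierstrassCurve F)

/-- `B₆` and `B₈` have no common zero on a curve with `Δ ≠ 0`. -/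
theorem FA_S51_B6_B8_not_both_zero (hΔ : E.Δ ≠ 0) (x : F) (h6 : FA_S51_B6 E x = 0)
    (h8 : FA_S51_B8 E x = 0) : False := by
  have h4 : FA_S51_B4 E x = 0 := by
    have := FA_S51_B_relation E x
    rw [h6, h8] at this
    have h : FA_S51_B4 E x ^ 2 = 0 := by linear_combination this
    exact pow_eq_zero_iff (by norm_num) |>.mp h
  apply hΔ
  rw [FA_S51_Δ_eq E x, h4, h6, h8]
  ring

/-- Tate normal form parametrisation at a root of `F₅`. -/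
theorem FA_S51_tate (hΔ : E.Δ ≠ 0) (x : F) (hF5 : FA_S51_F5 E x = 0) :
    ∃ t v : F, t ≠ 0 ∧ v ≠ 0 ∧ t ^ 2 - 11 * t - 1 ≠ 0 ∧
      FA_S51_B2 E x = v * (t ^ 2 - 6 * t + 1) ∧ FA_S51_B4 E x = v ^ 2 * (t ^ 2 - t) ∧
      FA_S51_B6 E x = v ^ 3 * t ^ 2 ∧ FA_S51_B8 E x = -(v ^ 4 * t ^ 3) ∧
      E.c₄ = v ^ 2 * (t ^ 4 - 12 * t ^ 3 + 14 * t ^ 2 + 12 * t + 1) ∧
      E.Δ = v ^ 6 * t ^ 5 * (t ^ 2 - 11 * t - 1) := by
  have hF5' : FA_S51_B8 E x ^ 3 - FA_S51_B4 E x * FA_S51_B6 E x ^ 2 * FA_S51_B8 E x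
      + FA_S51_B6 E x ^ 4 = 0 := hF5
  have h6 : FA_S51_B6 E x ≠ 0 := by
    intro h6
    have h8 : FA_S51_B8 E x = 0 := by
      rw [h6] at hF5'
      have : FA_S51_B8 E x ^ 3 = 0 := by linear_combination hF5'
      exact pow_eq_zero_iff (by norm_num) |>.mp this
    exact FA_S51_B6_B8_not_both_zero E hΔ x h6 h8
  have h8 : FA_S51_B8 E x ≠ 0 := by
    intro h8
    have h6' : FA_S51_B6 E x = 0 := by
      rw [h8] at hF5'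
      have : FA_S51_B6 E x ^ 4 = 0 := by linear_combination hF5'
      exact pow_eq_zero_iff (by norm_num) |>.mp this
    exact h6 h6'
  have hrel := FA_S51_B_relation E x
  obtain ⟨B2, hB2⟩ : ∃ B2, B2 = FA_S51_B2 E x := ⟨_, rfl⟩
  obtain ⟨B4, hB4⟩ : ∃ B4, B4 = FA_S51_B4 E x := ⟨_, rfl⟩
  obtain ⟨B6, hB6⟩ : ∃ B6, B6 = FA_S51_B6 E x := ⟨_, rfl⟩
  obtain ⟨B8, hB8⟩ : ∃ B8, B8 = FA_S51_B8 E x := ⟨_, rfl⟩
  rw [← hB2, ← hB4, ← hB6, ← hB8] at hrel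
  rw [← hB4, ← hB6, ← hB8] at hF5'
  rw [← hB6] at h6
  rw [← hB8] at h8
  have hc4 := FA_S51_c4_eq E x
  have hΔe := FA_S51_Δ_eq E x
  rw [← hB2, ← hB4] at hc4
  rw [← hB2, ← hB4, ← hB6, ← hB8] at hΔe
  rw [← hB2, ← hB4, ← hB6, ← hB8]
  have ht : -(B8 ^ 3 / B6 ^ 4) ≠ 0 := by
    rw [neg_ne_zero]; exact div_ne_zero (pow_ne_zero _ h8) (pow_ne_zero _ h6)
  have hv : B6 ^ 3 / B8 ^ 2 ≠ 0 := div_ne_zero (pow_ne_zero _ h6) (pow_ne_zero _ h8)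
  have e6 : B6 = (B6 ^ 3 / B8 ^ 2) ^ 3 * (-(B8 ^ 3 / B6 ^ 4)) ^ 2 := by
    field_simp
  have e8 : B8 = -((B6 ^ 3 / B8 ^ 2) ^ 4 * (-(B8 ^ 3 / B6 ^ 4)) ^ 3) := by
    field_simp
  have e4 : B4 = (B6 ^ 3 / B8 ^ 2) ^ 2 * ((-(B8 ^ 3 / B6 ^ 4)) ^ 2 - (-(B8 ^ 3 / B6 ^ 4))) := by
    field_simp
    linear_combination -hF5'
  have e2 : B2 = (B6 ^ 3 / B8 ^ 2) * ((-(B8 ^ 3 / B6 ^ 4)) ^ 2 - 6 * (-(B8 ^ 3 / B6 ^ 4)) + 1) := by
    have h1 : B2 = (4 * B8 + B4 ^ 2) / B6 := by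
      field_simp
      linear_combination -hrel
    have h2 : B4 = (B8 ^ 3 + B6 ^ 4) / (B6 ^ 2 * B8) := by
      field_simp
      linear_combination -hF5'
    rw [h1, h2]
    field_simp
    ring
  obtain ⟨t, htdef⟩ : ∃ t, t = -(B8 ^ 3 / B6 ^ 4) := ⟨_, rfl⟩
  obtain ⟨v, hvdef⟩ : ∃ v, v = B6 ^ 3 / B8 ^ 2 := ⟨_, rfl⟩
  rw [← htdef] at ht e6 e8 e4 e2
  rw [← hvdef] at hv e6 e8 e4 e2
  have ec4 : E.c₄ = v ^ 2 * (t ^ 4 - 12 * t ^ 3 + 14 * t ^ 2 + 12 * t + 1) := by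
    rw [hc4, e2, e4]; ring
  have eΔ : E.Δ = v ^ 6 * t ^ 5 * (t ^ 2 - 11 * t - 1) := by
    rw [hΔe, e2, e4, e6, e8]; ring
  refine ⟨t, v, ht, hv, ?_, e2, e4, e6, e8, ec4, eΔ⟩
  intro h0
  apply hΔ
  rw [eΔ, h0, mul_zero]

/-- TRACK P5. -/
theorem FA_S51_p5 : FA_S51_Target_P5 := by
  intro F _ E hΔ x hF5
  obtain ⟨t, v, ht, hv, hd, e2, e4, e6, e8, ec4, eΔ⟩ := FA_S51_tate E hΔ x hF5
  have h6 : FA_S51_B6 E x ≠ 0 := by
    rw [e6]; exact mul_ne_zero (pow_ne_zero _ hv) (pow_ne_zero _ ht)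
  have h8 : FA_S51_B8 E x ≠ 0 := by
    rw [e8, neg_ne_zero]; exact mul_ne_zero (pow_ne_zero _ hv) (pow_ne_zero _ ht)
  have hs : FA_S51_sParam E x = (t ^ 2 - 11 * t - 1) / t := by
    unfold FA_S51_sParam
    rw [e6, e8]
    field_simp
    ring
  have hδ : x - FA_S51_B8 E x / FA_S51_B6 E x = x + v * t := by
    rw [e6, e8]
    field_simp
    ring
  have e4' : FA_S51_B4 E (x + v * t) = v ^ 2 * t ^ 2 * (t + 1) := by
    rw [FA_S51_B4_add, e2, e4]; ring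
  have e6' : FA_S51_B6 E (x + v * t) = v ^ 3 * t ^ 4 := by
    rw [FA_S51_B6_add, e2, e4, e6]; ring
  have e8' : FA_S51_B8 E (x + v * t) = v ^ 4 * t ^ 5 := by
    rw [FA_S51_B8_add, e2, e4, e6, e8]; ring
  refine ⟨h6, h8, ?_, ?_, ?_, ?_⟩
  · rw [hs]; exact div_ne_zero hd ht
  · rw [hs, ec4, eΔ]
    field_simp
    ring
  · rw [hδ]
    unfold FA_S51_F5
    rw [e4', e6', e8']
    ring
  · rw [hδ, hs]
    unfold FA_S51_sParam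
    rw [e6', e8']
    field_simp
    ring

end field

end Fermat.Agent.S51
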