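import Mathlib
import Fermat.Agent.S51.P5

/-!
# S51, track P3: a rational root of `Ψ₃` gives a rational point of `X₀(3)` above `j`
-/

set_option autoImplicit false

open WeierstrassCurve

namespace Fermat.Agent.S51

/-- TRACK P3 (over any field). -/
theorem FA_S51_p3_field {F : Type*} [Field F] (W : WeierstrassCurve F) (hΔ : W.Δ ≠ 0) (x₀ : F)
    (h8 : FA_S51_B8 W x₀ = 0) :
    W.c₄ = 0 ∨ ∃ h : F, h ≠ 0 ∧ W.c₄ ^ 3 * h = (h + 27) * (h + 3) ^ 3 * W.Δ := by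
  have hrel := FA_S51_B_relation W x₀
  have hc4 := FA_S51_c4_eq W x₀
  have hΔe := FA_S51_Δ_eq W x₀
  obtain ⟨B2, hB2⟩ : ∃ B2, B2 = FA_S51_B2 W x₀ := ⟨_, rfl⟩
  obtain ⟨B4, hB4⟩ : ∃ B4, B4 = FA_S51_B4 W x₀ := ⟨_, rfl⟩
  obtain ⟨B6, hB6⟩ : ∃ B6, B6 = FA_S51_B6 W x₀ := ⟨_, rfl⟩
  rw [h8, ← hB2, ← hB4, ← hB6] at hrel hΔe
  rw [← hB2, ← hB4] at hc4
  -- hrel : 4 * 0 = B2 * B6 - B4 ^ 2
  have hrel' : B2 * B6 = B4 ^ 2 := by linear_combination -hrel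
  by_cases h4 : B4 = 0
  · left
    rw [h4] at hrel' hΔe
    have h6 : B6 ≠ 0 := by
      intro h6
      apply hΔ
      rw [hΔe, h6]; ring
    have h2 : B2 = 0 := by
      rcases mul_eq_zero.mp (by rw [hrel']; ring : B2 * B6 = 0) with h | h
      · exact h
      · exact absurd h h6
    rw [hc4, h2, h4]; ring
  · right
    have h2 : B2 ≠ 0 := by
      intro h2
      rw [h2, zero_mul] at hrel'
      exact h4 (pow_eq_zero_iff (by norm_num) |>.mp hrel'.symm)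
    have e6 : B6 = B4 ^ 2 / B2 := by
      field_simp
      linear_combination hrel'
    have eΔ : W.Δ = B4 ^ 3 * (B2 ^ 2 - 27 * B4) / B2 ^ 2 := by
      rw [hΔe, e6]
      field_simp
      ring
    have hne : B2 ^ 2 - 27 * B4 ≠ 0 := by
      intro h0
      apply hΔ
      rw [eΔ, h0]; simp
    refine ⟨(B2 ^ 2 - 27 * B4) / B4, div_ne_zero hne h4, ?_⟩
    rw [hc4, eΔ]
    field_simp
    ring

theorem FA_S51_p3 : FA_S51_Target_P3 :=
  fun W hΔ x₀ h8 => FA_S51_p3_field W hΔ x₀ h8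

end Fermat.Agent.S51
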