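import Mathlib
import Fermat.Agent.S51.Interface2

/-!
# S51, track T2: doubling in `b`-form
-/

set_option autoImplicit false
set_option linter.unusedSectionVars false

open WeierstrassCurve WeierstrassCurve.Affine

namespace Fermat.Agent.S51

section

variable {F : Type} [Field F] (E : WeierstrassCurve.Affine F)

/-- `B₆(x) = (y - negY x y)²` on the curve. -/
theorem FA_S51_T2_B6_eq {x y : F} (h : E.Equation x y) :
    FA_S51_B6 E x = (y - E.negY x y) ^ 2 := by
  rw [Affine.equation_iff] at h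
  simp only [FA_S51_B6, Affine.negY, WeierstrassCurve.b₂, WeierstrassCurve.b₄,
    WeierstrassCurve.b₆]
  linear_combination (-4 : F) * h

/-- The numerator identity behind the duplication formula. -/
theorem FA_S51_T2_num {x y : F} (h : E.Equation x y) :
    (3 * x ^ 2 + 2 * E.a₂ * x + E.a₄ - E.a₁ * y) ^ 2
      + E.a₁ * (3 * x ^ 2 + 2 * E.a₂ * x + E.a₄ - E.a₁ * y) * (y - E.negY x y)
      - (E.a₂ + 3 * x) * (y - E.negY x y) ^ 2 = - FA_S51_B8 E x := by
  rw [Affine.equation_iff] at h
  simp only [FA_S51_B8, Affine.negY, WeierstrassCurve.b₂, WeierstrassCurve.b₄,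
    WeierstrassCurve.b₆, WeierstrassCurve.b₈]
  linear_combination (-(E.a₁ ^ 2) - 4 * E.a₂ - 12 * x : F) * h

variable [DecidableEq F]

/-- `x(2P) = x - B₈/B₆`. -/
theorem FA_S51_T2_addX {x y : F} (h : E.Equation x y) (hy : y ≠ E.negY x y) :
    E.addX x x (E.slope x x y y) = x - FA_S51_B8 E x / FA_S51_B6 E x := by
  have hne : y - E.negY x y ≠ 0 := sub_ne_zero.mpr hy
  have hnum := FA_S51_T2_num E h
  have hB8 : FA_S51_B8 E x = -((3 * x ^ 2 + 2 * E.a₂ * x + E.a₄ - E.a₁ * y) ^ 2
      + E.a₁ * (3 * x ^ 2 + 2 * E.a₂ * x + E.a₄ - E.a₁ * y) * (y - E.negY x y)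
      - (E.a₂ + 3 * x) * (y - E.negY x y) ^ 2) := by
    linear_combination hnum
  rw [Affine.slope_of_Y_ne rfl hy, FA_S51_T2_B6_eq E h, hB8]
  simp only [Affine.addX]
  field_simp
  ring

/-- Transport of an affine point along an equality of `x`-coordinates. -/
theorem FA_S51_T2_some_transport {x₁ x₂ y : F} (hx : x₁ = x₂) (h : E.Nonsingular x₁ y) :
    ∃ (h' : E.Nonsingular x₂ y), Affine.Point.some x₁ y h = Affine.Point.some x₂ y h' := by
  subst hx
  exact ⟨h, rfl⟩

theorem FA_S51_T2 : FA_S51_Target_T2 := by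
  intro F _ _ E x y h
  have hB6 := FA_S51_T2_B6_eq E h.1
  refine ⟨hB6, ?_, ?_⟩
  · rw [two_smul, hB6, sq_eq_zero_iff, sub_eq_zero]
    constructor
    · intro h2
      by_contra hy
      rw [Affine.Point.add_self_of_Y_ne hy] at h2
      exact Affine.Point.some_ne_zero _ h2
    · intro hy
      exact Affine.Point.add_self_of_Y_eq hy
  · intro hne
    have hy : y ≠ E.negY x y := by
      intro hy
      apply hne
      rw [hB6, ← hy, sub_self]
      ring
    have hx := FA_S51_T2_addX E h.1 hy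
    have hns := Affine.nonsingular_add h h fun hxy => hy hxy.right
    obtain ⟨h', hh'⟩ := FA_S51_T2_some_transport E hx hns
    refine ⟨E.addY x x y (E.slope x x y y), h', ?_⟩
    rw [two_smul, Affine.Point.add_self_of_Y_ne hy]
    exact hh'

end

end Fermat.Agent.S51
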