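import Mathlib
import Fermat.Agent.S51.T2

/-!
# S51, track T3: `3P = 0 ↔ B₈(x) = 0`
-/

set_option autoImplicit false
set_option linter.unusedSectionVars false

open WeierstrassCurve WeierstrassCurve.Affine

namespace Fermat.Agent.S51

section

variable {F : Type} [Field F] (E : WeierstrassCurve.Affine F)

/-- `4 B₈ = B₂ B₆ - B₄²`. -/
theorem FA_S51_T3_four_B8 (x : F) :
    4 * FA_S51_B8 E x = FA_S51_B2 E x * FA_S51_B6 E x - FA_S51_B4 E x ^ 2 := by
  simp only [FA_S51_B2, FA_S51_B4, FA_S51_B6, FA_S51_B8, WeierstrassCurve.b₂,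
    WeierstrassCurve.b₄, WeierstrassCurve.b₆, WeierstrassCurve.b₈]
  ring

/-- `Δ` in terms of the translated invariants. -/
theorem FA_S51_T3_Delta (x : F) :
    E.Δ = -(FA_S51_B2 E x) ^ 2 * FA_S51_B8 E x - 8 * FA_S51_B4 E x ^ 3
      - 27 * FA_S51_B6 E x ^ 2 + 9 * FA_S51_B2 E x * FA_S51_B4 E x * FA_S51_B6 E x := by
  simp only [FA_S51_B2, FA_S51_B4, FA_S51_B6, FA_S51_B8, WeierstrassCurve.Δ, WeierstrassCurve.b₂,
    WeierstrassCurve.b₄, WeierstrassCurve.b₆, WeierstrassCurve.b₈]
  ring

/-- `B₆` and `B₈` have no common root when `Δ ≠ 0`. -/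
theorem FA_S51_T3_not_both (hΔ : E.Δ ≠ 0) (x : F) (h6 : FA_S51_B6 E x = 0)
    (h8 : FA_S51_B8 E x = 0) : False := by
  have h4 : FA_S51_B4 E x = 0 := by
    have := FA_S51_T3_four_B8 E x
    rw [h6, h8] at this
    have h : FA_S51_B4 E x ^ 2 = 0 := by linear_combination this
    exact pow_eq_zero_iff (two_ne_zero) |>.mp h
  apply hΔ
  rw [FA_S51_T3_Delta E x, h4, h6, h8]
  ring

variable [DecidableEq F]

theorem FA_S51_T3 : FA_S51_Target_T3 := by
  intro F _ _ E hΔ x y h
  obtain ⟨hB6, h2, hdup⟩ := FA_S51_T2 F E x y h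
  have h3 : (3 : ℤ) • Affine.Point.some x y h
      = (2 : ℤ) • Affine.Point.some x y h + Affine.Point.some x y h := by
    rw [show (3 : ℤ) = 2 + 1 by norm_num, add_smul, one_smul]
  rw [h3]
  by_cases h6 : FA_S51_B6 E x = 0
  · rw [h2.mpr h6, zero_add]
    constructor
    · intro h0
      exact absurd h0 (Affine.Point.some_ne_zero _)
    · intro h8
      exact (FA_S51_T3_not_both E hΔ x h6 h8).elim
  · obtain ⟨y', h', hy'⟩ := hdup h6
    rw [hy']
    constructor
    · intro h0
      have hneg : Affine.Point.some (x - FA_S51_B8 E x / FA_S51_B6 E x) y' h'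
          = -Affine.Point.some x y h := eq_neg_of_add_eq_zero_left h0
      rw [Affine.Point.neg_some] at hneg
      have hx : x - FA_S51_B8 E x / FA_S51_B6 E x = x := by
        have := hneg
        rw [Affine.Point.some.injEq] at this
        exact this.1
      have : FA_S51_B8 E x / FA_S51_B6 E x = 0 := by linear_combination -hx
      rcases div_eq_zero_iff.mp this with h8 | h6'
      · exact h8
      · exact absurd h6' h6
    · intro h8
      have hx : x - FA_S51_B8 E x / FA_S51_B6 E x = x := by rw [h8, zero_div, sub_zero]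
      rcases Affine.Y_eq_of_X_eq h'.1 h.1 hx with hyy | hyy
      · -- `2P = P`, impossible
        exfalso
        have hPP : Affine.Point.some (x - FA_S51_B8 E x / FA_S51_B6 E x) y' h'
            = Affine.Point.some x y h := by
          rw [Affine.Point.some.injEq]
          exact ⟨hx, hyy⟩
        rw [hPP] at hy'
        have : Affine.Point.some x y h = 0 := by
          have h22 : (2 : ℤ) • Affine.Point.some x y h
              = Affine.Point.some x y h + Affine.Point.some x y h := two_smul _ _
          rw [h22] at hy'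
          exact add_eq_right.mp hy' 
        exact Affine.Point.some_ne_zero _ this
      · have hPP : Affine.Point.some (x - FA_S51_B8 E x / FA_S51_B6 E x) y' h'
            = -Affine.Point.some x y h := by
          rw [Affine.Point.neg_some, Affine.Point.some.injEq]
          exact ⟨hx, hyy⟩
        rw [hPP, neg_add_cancel]

end

end Fermat.Agent.S51
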