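import Mathlib
import Fermat.Agent.S51.T3
import Fermat.Agent.S51.P5

/-!
# S51, track T5: `5P = 0 ↔ F₅(x) = 0`
-/

set_option autoImplicit false
set_option linter.unusedSectionVars false

open WeierstrassCurve WeierstrassCurve.Affine

namespace Fermat.Agent.S51

section

variable {F : Type} [Field F] (E : WeierstrassCurve.Affine F)

/-- The key identity: with `δ = -B₈/B₆`, `B₈(x+δ) - δ B₆(x+δ) = -(B₈/B₆⁴) F₅(x)`, cleared of
denominators. -/
theorem FA_S51_T5_key (x : F) (h6 : FA_S51_B6 E x ≠ 0) :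
    (FA_S51_B8 E (x - FA_S51_B8 E x / FA_S51_B6 E x)
      - (-(FA_S51_B8 E x / FA_S51_B6 E x))
        * FA_S51_B6 E (x - FA_S51_B8 E x / FA_S51_B6 E x)) * FA_S51_B6 E x ^ 4
      = -(FA_S51_B8 E x * FA_S51_F5 E x) := by
  have hx : x - FA_S51_B8 E x / FA_S51_B6 E x = x + (-(FA_S51_B8 E x / FA_S51_B6 E x)) := by
    ring
  rw [hx, FA_S51_B8_add, FA_S51_B6_add]
  unfold FA_S51_F5
  field_simp
  ring

variable [DecidableEq F]

/-- If two affine points have the same `x`-coordinate they are equal or opposite. -/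
theorem FA_S51_T5_eq_or_neg {x₁ y₁ x₂ y₂ : F} (h₁ : E.Nonsingular x₁ y₁)
    (h₂ : E.Nonsingular x₂ y₂) (hx : x₁ = x₂) :
    Affine.Point.some x₁ y₁ h₁ = Affine.Point.some x₂ y₂ h₂ ∨
      Affine.Point.some x₁ y₁ h₁ = -Affine.Point.some x₂ y₂ h₂ := by
  rcases Affine.Y_eq_of_X_eq h₁.1 h₂.1 hx with hy | hy
  · left
    rw [Affine.Point.some.injEq]
    exact ⟨hx, hy⟩
  · right
    rw [Affine.Point.neg_some, Affine.Point.some.injEq]
    exact ⟨hx, hy⟩

theorem FA_S51_T5 : FA_S51_Target_T5 := by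
  intro F _ _ E hΔ x y h
  obtain ⟨-, h2, hdup⟩ := FA_S51_T2 F E x y h
  have hT3 := FA_S51_T3 F E hΔ x y h
  have hP0 : Affine.Point.some x y h ≠ 0 := Affine.Point.some_ne_zero _
  have h5 : (5 : ℤ) • Affine.Point.some x y h
      = (2 : ℤ) • ((2 : ℤ) • Affine.Point.some x y h) + Affine.Point.some x y h := by
    rw [smul_smul, show (5 : ℤ) = 2 * 2 + 1 by norm_num, add_smul, one_smul]
  have h3 : (3 : ℤ) • Affine.Point.some x y h
      = (2 : ℤ) • Affine.Point.some x y h + Affine.Point.some x y h := by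
    rw [show (3 : ℤ) = 2 + 1 by norm_num, add_smul, one_smul]
  constructor
  · intro h50
    -- `B₆(x) ≠ 0`
    have h6 : FA_S51_B6 E x ≠ 0 := by
      intro h6
      rw [h5, h2.mpr h6, smul_zero, zero_add] at h50
      exact hP0 h50
    obtain ⟨y₂, hns₂, hy₂⟩ := hdup h6
    obtain ⟨-, h2', hdup'⟩ := FA_S51_T2 F E _ y₂ hns₂
    have h6' : FA_S51_B6 E (x - FA_S51_B8 E x / FA_S51_B6 E x) ≠ 0 := by
      intro h6'
      rw [h5, hy₂, h2'.mpr h6', zero_add] at h50
      exact hP0 h50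
    obtain ⟨y₄, hns₄, hy₄⟩ := hdup' h6'
    rw [h5, hy₂, hy₄] at h50
    have hneg := eq_neg_of_add_eq_zero_left h50
    rw [Affine.Point.neg_some, Affine.Point.some.injEq] at hneg
    have hx4 := hneg.1
    -- `B₈ ≠ 0`
    have h8 : FA_S51_B8 E x ≠ 0 := by
      intro h8
      have h30 := hT3.mpr h8
      -- `2P = 0` from `5P = 0` and `3P = 0`
      have h20 : (2 : ℤ) • Affine.Point.some x y h = 0 := by
        have e : (2 : ℤ) • Affine.Point.some x y h
            = (5 : ℤ) • Affine.Point.some x y h - (3 : ℤ) • Affine.Point.some x y h := by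
          rw [← sub_smul]; norm_num
        rw [e, h30, sub_zero, h5, hy₂, hy₄]
        exact h50
      exact h6 (h2.mp h20)
    have key := FA_S51_T5_key E x h6
    have hB8 : FA_S51_B8 E (x - FA_S51_B8 E x / FA_S51_B6 E x)
        = (-(FA_S51_B8 E x / FA_S51_B6 E x))
          * FA_S51_B6 E (x - FA_S51_B8 E x / FA_S51_B6 E x) := by
      have e : FA_S51_B8 E (x - FA_S51_B8 E x / FA_S51_B6 E x)
          / FA_S51_B6 E (x - FA_S51_B8 E x / FA_S51_B6 E x)
          = -(FA_S51_B8 E x / FA_S51_B6 E x) := by linear_combination -hx4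
      rw [← e, div_mul_cancel₀ _ h6']
    rw [hB8, sub_self, zero_mul] at key
    have : FA_S51_B8 E x * FA_S51_F5 E x = 0 := by linear_combination key
    rcases mul_eq_zero.mp this with h | h
    · exact absurd h h8
    · exact h
  · intro hF5
    obtain ⟨h6, h8, -, -, hF5', -⟩ := FA_S51_p5 F E hΔ x hF5
    obtain ⟨h6', -, -, -, -, -⟩ := FA_S51_p5 F E hΔ _ hF5'
    obtain ⟨y₂, hns₂, hy₂⟩ := hdup h6
    obtain ⟨-, h2', hdup'⟩ := FA_S51_T2 F E _ y₂ hns₂
    obtain ⟨y₄, hns₄, hy₄⟩ := hdup' h6'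
    have key := FA_S51_T5_key E x h6
    rw [hF5, mul_zero, neg_zero] at key
    have hB8 : FA_S51_B8 E (x - FA_S51_B8 E x / FA_S51_B6 E x)
        = (-(FA_S51_B8 E x / FA_S51_B6 E x))
          * FA_S51_B6 E (x - FA_S51_B8 E x / FA_S51_B6 E x) := by
      have := (mul_eq_zero.mp key).resolve_right (pow_ne_zero 4 h6)
      linear_combination this
    have hx4 : x - FA_S51_B8 E x / FA_S51_B6 E x
        - FA_S51_B8 E (x - FA_S51_B8 E x / FA_S51_B6 E x)
          / FA_S51_B6 E (x - FA_S51_B8 E x / FA_S51_B6 E x) = x := by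
      rw [hB8, mul_div_assoc, div_self h6', mul_one]
      ring
    rw [h5, hy₂, hy₄]
    rcases FA_S51_T5_eq_or_neg E hns₄ h hx4 with hPP | hPP
    · -- `4P = P` gives `3P = 0`, so `B₈ = 0`
      exfalso
      apply h8
      apply hT3.mp
      have e : (3 : ℤ) • Affine.Point.some x y h
          = (2 : ℤ) • ((2 : ℤ) • Affine.Point.some x y h) - Affine.Point.some x y h := by
        rw [smul_smul, show ((2 : ℤ) * 2) = 3 + 1 by norm_num, add_smul, one_smul,
          add_sub_cancel_right]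
      rw [e, hy₂, hy₄, hPP, sub_self]
    · rw [hPP, neg_add_cancel]

end

end Fermat.Agent.S51
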