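import Mathlib
import Fermat.Agent.S51.T5

/-!
# S51, track Count: `E[3]` and `E[5]` are nontrivial and have at most `9`, resp. `25`, points
-/

set_option autoImplicit false
set_option linter.unusedSectionVars false

open Polynomial WeierstrassCurve WeierstrassCurve.Affine

namespace Fermat.Agent.S51

section

variable {F : Type} [Field F] (E : WeierstrassCurve.Affine F)

/-- `B₄` as a polynomial. -/
noncomputable def FA_S51_Count_pB4 : F[X] := C E.b₄ + C E.b₂ * X + 6 * X ^ 2

/-- `B₆` as a polynomial. -/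
noncomputable def FA_S51_Count_pB6 : F[X] :=
  C E.b₆ + 2 * C E.b₄ * X + C E.b₂ * X ^ 2 + 4 * X ^ 3

/-- `B₈` as a polynomial. -/
noncomputable def FA_S51_Count_pB8 : F[X] :=
  C E.b₈ + 3 * C E.b₆ * X + 3 * C E.b₄ * X ^ 2 + C E.b₂ * X ^ 3 + 3 * X ^ 4

/-- `F₅` as a polynomial. -/
noncomputable def FA_S51_Count_pF5 : F[X] :=
  FA_S51_Count_pB8 E ^ 3 - FA_S51_Count_pB4 E * FA_S51_Count_pB6 E ^ 2 * FA_S51_Count_pB8 E
    + FA_S51_Count_pB6 E ^ 4

theorem FA_S51_Count_pB8_natDegree [CharZero F] : (FA_S51_Count_pB8 E).natDegree = 4 := by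
  unfold FA_S51_Count_pB8
  compute_degree!

theorem FA_S51_Count_pF5_natDegree [CharZero F] : (FA_S51_Count_pF5 E).natDegree = 12 := by
  unfold FA_S51_Count_pF5 FA_S51_Count_pB8 FA_S51_Count_pB6 FA_S51_Count_pB4
  compute_degree!

theorem FA_S51_Count_pB8_eval (x : F) : (FA_S51_Count_pB8 E).eval x = FA_S51_B8 E x := by
  simp only [FA_S51_Count_pB8, FA_S51_B8, eval_add, eval_mul, eval_pow, eval_C, eval_X,
    eval_ofNat]

theorem FA_S51_Count_pF5_eval (x : F) : (FA_S51_Count_pF5 E).eval x = FA_S51_F5 E x := by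
  simp only [FA_S51_Count_pF5, FA_S51_Count_pB8, FA_S51_Count_pB6, FA_S51_Count_pB4, FA_S51_F5,
    FA_S51_B8, FA_S51_B6, FA_S51_B4, eval_add, eval_sub, eval_mul, eval_pow, eval_C, eval_X,
    eval_ofNat]

/-- The Weierstrass equation at a fixed `x`, as a monic quadratic in `Y`. -/
noncomputable def FA_S51_Count_quad (x : F) : F[X] :=
  X ^ 2 + C (E.a₁ * x + E.a₃) * X - C (x ^ 3 + E.a₂ * x ^ 2 + E.a₄ * x + E.a₆)

theorem FA_S51_Count_quad_eval (x y : F) :
    (FA_S51_Count_quad E x).eval y = 0 ↔ E.Equation x y := by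
  rw [Affine.equation_iff]
  simp only [FA_S51_Count_quad, eval_add, eval_sub, eval_mul, eval_pow, eval_C, eval_X]
  constructor <;> intro h <;> linear_combination h

theorem FA_S51_Count_quad_natDegree (x : F) : (FA_S51_Count_quad E x).natDegree = 2 := by
  unfold FA_S51_Count_quad
  compute_degree!

theorem FA_S51_Count_quad_ne_zero (x : F) : FA_S51_Count_quad E x ≠ 0 := by
  intro h
  have := FA_S51_Count_quad_natDegree E x
  rw [h, natDegree_zero] at this
  exact absurd this (by norm_num)

/-- Over an algebraically closed field, every `x` is the `x`-coordinate of a point. -/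
theorem FA_S51_Count_exists_y [IsAlgClosed F] (x : F) : ∃ y : F, E.Equation x y := by
  have hdeg : (FA_S51_Count_quad E x).degree ≠ 0 := by
    rw [degree_eq_natDegree (FA_S51_Count_quad_ne_zero E x), FA_S51_Count_quad_natDegree]
    norm_num
  obtain ⟨y, hy⟩ := IsAlgClosed.exists_root _ hdeg
  exact ⟨y, (FA_S51_Count_quad_eval E x y).mp hy⟩

variable [DecidableEq F]

/-- Encoding of points as optional pairs. -/
def FA_S51_Count_enc : E.Point → Option (F × F)
  | .zero => none
  | .some x y _ => some (x, y)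

theorem FA_S51_Count_enc_injective : Function.Injective (FA_S51_Count_enc E) := by
  intro P Q hPQ
  cases P with
  | zero =>
    cases Q with
    | zero => rfl
    | some x y h => simp [FA_S51_Count_enc] at hPQ
  | some x y h =>
    cases Q with
    | zero => simp [FA_S51_Count_enc] at hPQ
    | some x' y' h' =>
      simp only [FA_S51_Count_enc, Option.some.injEq, Prod.mk.injEq] at hPQ
      rw [Affine.Point.some.injEq]
      exact hPQ

/-- The finite set of candidate points attached to a polynomial `p` in `x`. -/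
noncomputable def FA_S51_Count_cand (p : F[X]) : Finset (Option (F × F)) :=
  insert none ((p.roots.toFinset.biUnion fun x =>
    (FA_S51_Count_quad E x).roots.toFinset.image fun y => (x, y)).image some)

theorem FA_S51_Count_cand_card (p : F[X]) (d : ℕ) (hd : p.natDegree ≤ d) :
    (FA_S51_Count_cand E p).card ≤ 2 * d + 1 := by
  unfold FA_S51_Count_cand
  refine (Finset.card_insert_le _ _).trans ?_
  refine Nat.succ_le_succ ?_
  refine Finset.card_image_le.trans ?_
  refine Finset.card_biUnion_le.trans ?_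
  have h1 : ∀ x ∈ p.roots.toFinset,
      ((FA_S51_Count_quad E x).roots.toFinset.image fun y => (x, y)).card ≤ 2 := by
    intro x _
    refine Finset.card_image_le.trans ?_
    refine (Multiset.toFinset_card_le _).trans ?_
    refine (card_roots' _).trans ?_
    rw [FA_S51_Count_quad_natDegree]
  refine (Finset.sum_le_card_nsmul _ _ 2 h1).trans ?_
  have h2 : p.roots.toFinset.card ≤ d :=
    (Multiset.toFinset_card_le _).trans ((card_roots' _).trans hd)
  rw [smul_eq_mul]
  nlinarith

/-- General finiteness and counting statement. -/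
theorem FA_S51_Count_general (n : ℤ) (p : F[X]) (hp : p ≠ 0) (d : ℕ) (hd : p.natDegree ≤ d)
    (hroot : ∀ (x y : F) (h : E.Nonsingular x y),
      n • Affine.Point.some x y h = 0 → p.eval x = 0) :
    Finite (Submodule.torsionBy ℤ E.Point n) ∧
      Nat.card (Submodule.torsionBy ℤ E.Point n) ≤ 2 * d + 1 := by
  have hmaps : Set.MapsTo (FA_S51_Count_enc E) (Submodule.torsionBy ℤ E.Point n : Set E.Point)
      (FA_S51_Count_cand E p : Set (Option (F × F))) := by
    intro P hP
    have hP' : n • P = 0 := by simpa using hP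
    cases P with
    | zero => simp [FA_S51_Count_enc, FA_S51_Count_cand]
    | some x y h =>
      have hx := hroot x y h hP'
      simp only [FA_S51_Count_enc, FA_S51_Count_cand, Finset.coe_insert, Finset.coe_image,
        Set.mem_insert_iff, reduceCtorEq, Set.mem_image, Finset.mem_coe, Finset.mem_biUnion,
        Multiset.mem_toFinset, Finset.mem_image, Option.some.injEq, false_or]
      refine ⟨(x, y), ⟨x, ?_, y, ?_, rfl⟩, rfl⟩
      · rw [mem_roots hp]
        exact hx
      · rw [mem_roots (FA_S51_Count_quad_ne_zero E x)]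
        exact (FA_S51_Count_quad_eval E x y).mpr h.1
  have hinj : Set.InjOn (FA_S51_Count_enc E) (Submodule.torsionBy ℤ E.Point n : Set E.Point) :=
    (FA_S51_Count_enc_injective E).injOn
  have hfin : (Submodule.torsionBy ℤ E.Point n : Set E.Point).Finite :=
    Set.Finite.of_injOn hmaps hinj (Finset.finite_toSet _)
  refine ⟨hfin.to_subtype, ?_⟩
  have hcard := Set.ncard_le_ncard_of_injOn (FA_S51_Count_enc E) hmaps hinj
    (Finset.finite_toSet _)
  rw [Set.ncard_coe_finset] at hcard
  have : Nat.card (Submodule.torsionBy ℤ E.Point n)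
      = (Submodule.torsionBy ℤ E.Point n : Set E.Point).ncard := rfl
  rw [this]
  exact hcard.trans (FA_S51_Count_cand_card E p d hd)

/-- General nontriviality statement. -/
theorem FA_S51_Count_nontrivial [IsAlgClosed F] (hΔ : E.Δ ≠ 0) (n : ℤ) (p : F[X])
    (hp : p.degree ≠ 0)
    (hroot : ∀ (x y : F) (h : E.Nonsingular x y),
      p.eval x = 0 → n • Affine.Point.some x y h = 0) :
    Nontrivial (Submodule.torsionBy ℤ E.Point n) := by
  obtain ⟨x, hx⟩ := IsAlgClosed.exists_root p hp
  obtain ⟨y, hy⟩ := FA_S51_Count_exists_y E x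
  have hns : E.Nonsingular x y := (E.equation_iff_nonsingular_of_Δ_ne_zero hΔ).mp hy
  have hmem : Affine.Point.some x y hns ∈ Submodule.torsionBy ℤ E.Point n := by
    rw [Submodule.mem_torsionBy_iff]
    exact hroot x y hns hx
  refine ⟨⟨⟨Affine.Point.some x y hns, hmem⟩, 0, ?_⟩⟩
  intro h
  have := congrArg Subtype.val h
  exact Affine.Point.some_ne_zero _ this

theorem FA_S51_count : FA_S51_Target_Count := by
  intro F _ _ _ _ E hΔ
  have h3deg := FA_S51_Count_pB8_natDegree E
  have h5deg := FA_S51_Count_pF5_natDegree E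
  have h3ne : FA_S51_Count_pB8 E ≠ 0 := by
    intro h
    rw [h, natDegree_zero] at h3deg
    exact absurd h3deg (by norm_num)
  have h5ne : FA_S51_Count_pF5 E ≠ 0 := by
    intro h
    rw [h, natDegree_zero] at h5deg
    exact absurd h5deg (by norm_num)
  refine ⟨⟨?_, ?_⟩, ⟨?_, ?_⟩⟩
  · refine FA_S51_Count_nontrivial E hΔ 3 (FA_S51_Count_pB8 E) ?_ ?_
    · rw [degree_eq_natDegree h3ne, h3deg]
      norm_num
    · intro x y h hx
      rw [FA_S51_Count_pB8_eval] at hx
      exact (FA_S51_T3 F E hΔ x y h).mpr hx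
  · have := FA_S51_Count_general E 3 (FA_S51_Count_pB8 E) h3ne 4 h3deg.le ?_
    · exact this
    · intro x y h hx
      rw [FA_S51_Count_pB8_eval]
      exact (FA_S51_T3 F E hΔ x y h).mp hx
  · refine FA_S51_Count_nontrivial E hΔ 5 (FA_S51_Count_pF5 E) ?_ ?_
    · rw [degree_eq_natDegree h5ne, h5deg]
      norm_num
    · intro x y h hx
      rw [FA_S51_Count_pF5_eval] at hx
      exact (FA_S51_T5 F E hΔ x y h).mpr hx
  · have := FA_S51_Count_general E 5 (FA_S51_Count_pF5 E) h5ne 12 h5deg.le ?_
    · exact this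
    · intro x y h hx
      rw [FA_S51_Count_pF5_eval]
      exact (FA_S51_T5 F E hΔ x y h).mp hx

end

end Fermat.Agent.S51
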