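import Mathlib
import Fermat.Agent.S51.Interface2

/-!
# S51: small Galois-descent library for tracks R3, R5

* `FA_S51_xc` : the `x`-coordinate of a point (`0` at infinity);
* compatibility with negation and with the Galois action;
* Galois-equivariance of `B₄, B₆, B₈, F₅, sParam` for curves defined over the base field;
* descent: an element of `Q̄` fixed by all of `Gal(Q̄/ℚ)` is rational.
-/

set_option autoImplicit false

open WeierstrassCurve WeierstrassCurve.Affine

namespace Fermat.Agent.S51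

/-- The `x`-coordinate of a point (`0` at the point at infinity). -/
def FA_S51_xc {F : Type*} [CommRing F] {E : WeierstrassCurve.Affine F} : E.Point → F
  | .zero => 0
  | .some x _ _ => x

theorem FA_S51_xc_some {F : Type*} [CommRing F] {E : WeierstrassCurve.Affine F} (x y : F)
    (h : E.Nonsingular x y) : FA_S51_xc (Affine.Point.some x y h) = x := rfl

theorem FA_S51_xc_neg {F : Type*} [CommRing F] {E : WeierstrassCurve.Affine F} (P : E.Point) :
    FA_S51_xc (-P) = FA_S51_xc P := by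
  cases P <;> rfl

theorem FA_S51_exists_some {F : Type*} [CommRing F] {E : WeierstrassCurve.Affine F} (P : E.Point)
    (hP : P ≠ 0) : ∃ (x y : F) (h : E.Nonsingular x y), P = Affine.Point.some x y h := by
  cases P with
  | zero => exact absurd rfl hP
  | some x y h => exact ⟨x, y, h, rfl⟩

section galois

variable {K : Type} [Field K] [Algebra ℚ K] (W' : WeierstrassCurve.Affine ℚ)

theorem FA_S51_xc_smul [DecidableEq K] (σ : K ≃ₐ[ℚ] K) (P : (W'⁄K).Point) :
    FA_S51_xc (σ • P) = σ (FA_S51_xc P) := by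
  cases P with
  | zero => exact (map_zero σ).symm
  | some x y h => rfl

theorem FA_S51_smul_ne_zero [DecidableEq K] (σ : K ≃ₐ[ℚ] K) (P : (W'⁄K).Point) (hP : P ≠ 0) : σ • P ≠ 0 := by
  cases P with
  | zero => exact absurd rfl hP
  | some x y h => exact Affine.Point.some_ne_zero _

theorem FA_S51_B4_smul (σ : K ≃ₐ[ℚ] K) (x : K) :
    FA_S51_B4 (W'⁄K) (σ x) = σ (FA_S51_B4 (W'⁄K) x) := by
  simp only [FA_S51_B4, WeierstrassCurve.baseChange, WeierstrassCurve.map_b₂,
    WeierstrassCurve.map_b₄, map_add, map_mul, map_pow, map_ofNat, AlgEquiv.commutes]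

theorem FA_S51_B6_smul (σ : K ≃ₐ[ℚ] K) (x : K) :
    FA_S51_B6 (W'⁄K) (σ x) = σ (FA_S51_B6 (W'⁄K) x) := by
  simp only [FA_S51_B6, WeierstrassCurve.baseChange, WeierstrassCurve.map_b₂,
    WeierstrassCurve.map_b₄, WeierstrassCurve.map_b₆, map_add, map_mul, map_pow, map_ofNat,
    AlgEquiv.commutes]

theorem FA_S51_B8_smul (σ : K ≃ₐ[ℚ] K) (x : K) :
    FA_S51_B8 (W'⁄K) (σ x) = σ (FA_S51_B8 (W'⁄K) x) := by
  simp only [FA_S51_B8, WeierstrassCurve.baseChange, WeierstrassCurve.map_b₂,
    WeierstrassCurve.map_b₄, WeierstrassCurve.map_b₆, WeierstrassCurve.map_b₈, map_add, map_mul,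
    map_pow, map_ofNat, AlgEquiv.commutes]

theorem FA_S51_sParam_smul (σ : K ≃ₐ[ℚ] K) (x : K) :
    FA_S51_sParam (W'⁄K) (σ x) = σ (FA_S51_sParam (W'⁄K) x) := by
  simp only [FA_S51_sParam, FA_S51_B6_smul, FA_S51_B8_smul, map_add, map_sub, map_neg, map_div₀,
    map_pow, map_ofNat]

/-- `B₈` of the base change at a rational point. -/
theorem FA_S51_B8_algebraMap (x₀ : ℚ) :
    FA_S51_B8 (W'⁄K) (algebraMap ℚ K x₀) = algebraMap ℚ K (FA_S51_B8 W' x₀) := by
  simp only [FA_S51_B8, WeierstrassCurve.baseChange, WeierstrassCurve.map_b₂,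
    WeierstrassCurve.map_b₄, WeierstrassCurve.map_b₆, WeierstrassCurve.map_b₈, map_add, map_mul,
    map_pow, map_ofNat]

theorem FA_S51_baseChange_Δ_ne_zero (hΔ : W'.Δ ≠ 0) : (W'⁄K).Δ ≠ 0 := by
  simp only [WeierstrassCurve.baseChange, WeierstrassCurve.map_Δ]
  exact fun h => hΔ ((map_eq_zero (algebraMap ℚ K)).mp h)

end galois

theorem FA_S51_isGalois_Qb : IsGalois ℚ (AlgebraicClosure ℚ) := by
  have h : (AlgebraicClosure.instAlgebra ℚ : Algebra ℚ (AlgebraicClosure ℚ)) =
      DivisionRing.toRatAlgebra := Subsingleton.elim _ _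
  rw [← h]
  infer_instance

/-- Galois descent: an element of `Q̄` fixed by the whole Galois group is rational. -/
theorem FA_S51_descend (x : AlgebraicClosure ℚ)
    (h : ∀ σ : AlgebraicClosure ℚ ≃ₐ[ℚ] AlgebraicClosure ℚ, σ x = x) :
    ∃ x₀ : ℚ, algebraMap ℚ (AlgebraicClosure ℚ) x₀ = x := by
  have := FA_S51_isGalois_Qb
  exact (InfiniteGalois.mem_range_algebraMap_iff_fixed (k := ℚ) (K := AlgebraicClosure ℚ) x).mpr h

/-- Reduce a multiplier modulo the order. -/
theorem FA_S51_zsmul_emod {A : Type*} [AddCommGroup A] (P : A) (n : ℤ) (hP : n • P = 0) (k : ℤ) :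
    k • P = (k % n) • P := by
  conv_lhs => rw [← Int.emod_add_mul_ediv k n]
  rw [add_smul, mul_comm, mul_smul, hP, smul_zero, add_zero]

end Fermat.Agent.S51
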