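import Mathlib
import Fermat.Agent.S51.Interface2

/-!
# S51, track Red: a reducible mod-`p` representation on a group `E[p]` of order `≤ p²` has a
Galois-stable cyclic subgroup
-/

set_option autoImplicit false

open WeierstrassCurve WeierstrassCurve.Affine

namespace Fermat.Agent.S51

/-- A proper nonzero subspace of a vector space with at most `p²` elements over `ZMod p` is a
line. -/
theorem FA_S51_line_of_proper {p : ℕ} [Fact p.Prime] {V : Type*} [AddCommGroup V]
    [Module (ZMod p) V] [Finite V] (hcard : Nat.card V ≤ p ^ 2) (N : Submodule (ZMod p) V)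
    (hbot : N ≠ ⊥) (htop : N ≠ ⊤) :
    ∃ v : V, v ∈ N ∧ v ≠ 0 ∧ ∀ w ∈ N, ∃ c : ZMod p, c • v = w := by
  have : Module.Finite (ZMod p) V := Module.Finite.of_finite
  have hp : 1 < p := (Fact.out : p.Prime).one_lt
  have hV : Module.finrank (ZMod p) V ≤ 2 := by
    have h1 : Nat.card V = p ^ Module.finrank (ZMod p) V := by
      rw [Module.natCard_eq_pow_finrank (K := ZMod p) (V := V), Nat.card_zmod]
    rw [h1] at hcard
    exact (Nat.pow_le_pow_iff_right hp).mp hcard
  have hlt : Module.finrank (ZMod p) N < Module.finrank (ZMod p) V :=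
    Submodule.finrank_lt htop
  have hpos : 0 < Module.finrank (ZMod p) N := by
    rw [Module.finrank_pos_iff]
    exact (Submodule.nontrivial_iff_ne_bot).mpr hbot
  have hN1 : Module.finrank (ZMod p) N = 1 := by omega
  obtain ⟨⟨v, hvN⟩, hv0, hspan⟩ := (finrank_eq_one_iff' (K := ZMod p) (V := N)).mp hN1
  refine ⟨v, hvN, fun h => hv0 (Subtype.ext h), fun w hw => ?_⟩
  obtain ⟨c, hc⟩ := hspan ⟨w, hw⟩
  exact ⟨c, congrArg Subtype.val hc⟩

/-- TRACK Red. -/
theorem FA_S51_red : FA_S51_Target_Red := by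
  intro p hp W' hnt hfin hcard hirr
  have : Fact p.Prime := ⟨hp⟩
  have hex : ∃ N : Submodule (ZMod p)
      (Submodule.torsionBy ℤ (W'⁄(AlgebraicClosure ℚ)).Point p),
      WeierstrassCurve.Affine.Point.IsGaloisStable ℚ N ∧ N ≠ ⊥ ∧ N ≠ ⊤ := by
    by_contra hcon
    apply hirr
    refine ⟨hnt, fun N hN => ?_⟩
    by_contra h
    rw [not_or] at h
    exact hcon ⟨N, hN, h.1, h.2⟩
  obtain ⟨N, hN, hbot, htop⟩ := hex
  obtain ⟨v, hvN, hv0, hspan⟩ := FA_S51_line_of_proper hcard N hbot htop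
  refine ⟨v.1, fun h => hv0 (Subtype.ext h), ?_, fun σ => ?_⟩
  · have := v.2
    rw [Submodule.mem_torsionBy_iff] at this
    exact this
  · obtain ⟨c, hc⟩ := hspan (σ • v) (hN σ v hvN)
    refine ⟨(c.cast : ℤ), ?_⟩
    have h1 : c • v = ((c.cast : ℤ)) • v := by
      conv_lhs => rw [← ZMod.intCast_zmod_cast c]
      exact Int.cast_smul_eq_zsmul (ZMod p) _ v
    have h2 : σ • v = ((c.cast : ℤ)) • v := by rw [← hc, h1]
    have h3 := congrArg Subtype.val h2
    exact h3

end Fermat.Agent.S51
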