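import Mathlib
import Fermat.Agent.S51.Gal
import Fermat.Agent.S51.Red
import Fermat.Agent.S51.Count
import Fermat.Agent.S51.T3

/-!
# S51, track R3: a reducible mod-`3` representation gives a rational root of `Ψ₃ = B₈`
-/

set_option autoImplicit false

open WeierstrassCurve WeierstrassCurve.Affine

namespace Fermat.Agent.S51

/-- TRACK R3. -/
theorem FA_S51_r3 : FA_S51_Target_R3 := by
  intro W hΔ hirr
  have hΔq : (W.map (Int.castRingHom ℚ)).Δ ≠ 0 := by
    rw [WeierstrassCurve.map_Δ]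
    simpa using hΔ
  have hΔE : ((W.map (Int.castRingHom ℚ))⁄(AlgebraicClosure ℚ)).Δ ≠ 0 :=
    FA_S51_baseChange_Δ_ne_zero _ hΔq
  obtain ⟨⟨hnt, hfin, hcard⟩, -⟩ := FA_S51_count (AlgebraicClosure ℚ) _ hΔE
  obtain ⟨P, hP0, hP3, hσ⟩ :=
    FA_S51_red 3 Nat.prime_three (W.map (Int.castRingHom ℚ)) hnt hfin hcard hirr
  have hP3' : (3 : ℤ) • P = 0 := hP3
  obtain ⟨x, y, h, rfl⟩ := FA_S51_exists_some P hP0
  have hB8 : FA_S51_B8 ((W.map (Int.castRingHom ℚ))⁄(AlgebraicClosure ℚ)) x = 0 :=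
    (FA_S51_T3 _ _ hΔE x y h).mp hP3'
  have hfix : ∀ σ : AlgebraicClosure ℚ ≃ₐ[ℚ] AlgebraicClosure ℚ, σ x = x := by
    intro σ
    obtain ⟨k, hk⟩ := hσ σ
    have hne := FA_S51_smul_ne_zero _ σ _ hP0
    have hx : FA_S51_xc (σ • Affine.Point.some x y h) = σ x := FA_S51_xc_smul _ σ _
    rw [hk, FA_S51_zsmul_emod _ 3 hP3' k] at hne hx
    have h1 : 0 ≤ k % 3 := Int.emod_nonneg k (by norm_num)
    have h2 : k % 3 < 3 := Int.emod_lt_of_pos k (by norm_num)
    obtain ⟨r, hr⟩ : ∃ r, r = k % 3 := ⟨_, rfl⟩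
    rw [← hr] at hne hx h1 h2
    interval_cases r
    · exact absurd (zero_smul _ _) hne
    · rw [one_smul] at hx
      exact hx.symm
    · have h2P : (2 : ℤ) • Affine.Point.some x y h = - Affine.Point.some x y h := by
        have h3 : (3 : ℤ) • Affine.Point.some x y h =
            (2 : ℤ) • Affine.Point.some x y h + Affine.Point.some x y h := by
          have h4 := add_zsmul (Affine.Point.some x y h) 2 1
          rw [one_zsmul] at h4
          exact h4
        rw [hP3'] at h3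
        exact eq_neg_of_add_eq_zero_left h3.symm
      rw [h2P, FA_S51_xc_neg] at hx
      exact hx.symm
  obtain ⟨x₀, hx₀⟩ := FA_S51_descend x hfix
  refine ⟨x₀, ?_⟩
  rw [← hx₀, FA_S51_B8_algebraMap] at hB8
  exact (map_eq_zero _).mp hB8

end Fermat.Agent.S51
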