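import Mathlib
import Fermat.Agent.S51.Gal
import Fermat.Agent.S51.Red
import Fermat.Agent.S51.Count
import Fermat.Agent.S51.T2
import Fermat.Agent.S51.T5
import Fermat.Agent.S51.P5

/-!
# S51, track R5: a reducible mod-`5` representation gives a rational point of `X₀(5)` above `j`
-/

set_option autoImplicit false

open WeierstrassCurve WeierstrassCurve.Affine

namespace Fermat.Agent.S51

theorem FA_S51_c4_baseChange {K : Type} [Field K] [Algebra ℚ K] (W' : WeierstrassCurve ℚ) :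
    (W'⁄K).c₄ = algebraMap ℚ K W'.c₄ := by
  simp only [WeierstrassCurve.baseChange, WeierstrassCurve.map_c₄]

theorem FA_S51_Δ_baseChange {K : Type} [Field K] [Algebra ℚ K] (W' : WeierstrassCurve ℚ) :
    (W'⁄K).Δ = algebraMap ℚ K W'.Δ := by
  simp only [WeierstrassCurve.baseChange, WeierstrassCurve.map_Δ]

/-- TRACK R5. -/
theorem FA_S51_r5 : FA_S51_Target_R5 := by
  intro W hΔ hirr
  have hΔq : (W.map (Int.castRingHom ℚ)).Δ ≠ 0 := by
    rw [WeierstrassCurve.map_Δ]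
    simpa using hΔ
  have hΔE : ((W.map (Int.castRingHom ℚ))⁄(AlgebraicClosure ℚ)).Δ ≠ 0 :=
    FA_S51_baseChange_Δ_ne_zero _ hΔq
  obtain ⟨-, ⟨hnt, hfin, hcard⟩⟩ := FA_S51_count (AlgebraicClosure ℚ) _ hΔE
  obtain ⟨P, hP0, hP5, hσ⟩ :=
    FA_S51_red 5 Nat.prime_five (W.map (Int.castRingHom ℚ)) hnt hfin hcard hirr
  have hP5' : (5 : ℤ) • P = 0 := hP5
  obtain ⟨x, y, h, rfl⟩ := FA_S51_exists_some P hP0
  have hF5 : FA_S51_F5 ((W.map (Int.castRingHom ℚ))⁄(AlgebraicClosure ℚ)) x = 0 :=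
    (FA_S51_T5 _ _ hΔE x y h).mp hP5'
  obtain ⟨hB6, hB8, hs0, hrel, -, hs2⟩ := FA_S51_p5 _ _ hΔE x hF5
  obtain ⟨-, -, hdbl⟩ := FA_S51_T2 _ ((W.map (Int.castRingHom ℚ))⁄(AlgebraicClosure ℚ)) x y h
  obtain ⟨y', h', h2P⟩ := hdbl hB6
  have hfix : ∀ σ : AlgebraicClosure ℚ ≃ₐ[ℚ] AlgebraicClosure ℚ,
      σ (FA_S51_sParam ((W.map (Int.castRingHom ℚ))⁄(AlgebraicClosure ℚ)) x) =
        FA_S51_sParam ((W.map (Int.castRingHom ℚ))⁄(AlgebraicClosure ℚ)) x := by
    intro σ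
    rw [← FA_S51_sParam_smul]
    obtain ⟨k, hk⟩ := hσ σ
    have hne := FA_S51_smul_ne_zero _ σ _ hP0
    have hx : FA_S51_xc (σ • Affine.Point.some x y h) = σ x := FA_S51_xc_smul _ σ _
    rw [hk, FA_S51_zsmul_emod _ 5 hP5' k] at hne hx
    have h1 : 0 ≤ k % 5 := Int.emod_nonneg k (by norm_num)
    have h2 : k % 5 < 5 := Int.emod_lt_of_pos k (by norm_num)
    obtain ⟨r, hr⟩ : ∃ r, r = k % 5 := ⟨_, rfl⟩
    rw [← hr] at hne hx h1 h2
    interval_cases r
    · exact absurd (zero_smul _ _) hne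
    · rw [one_smul] at hx
      rw [← hx]
      rfl
    · rw [h2P] at hx
      rw [← hx]
      exact hs2
    · have h3P : (3 : ℤ) • Affine.Point.some x y h = - ((2 : ℤ) • Affine.Point.some x y h) := by
        have h4 := add_zsmul (Affine.Point.some x y h) 3 2
        have h5 : (3 + 2 : ℤ) • Affine.Point.some x y h = 0 := hP5'
        rw [h5] at h4
        exact eq_neg_of_add_eq_zero_left h4.symm
      rw [h3P, FA_S51_xc_neg, h2P] at hx
      rw [← hx]
      exact hs2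
    · have h4P : (4 : ℤ) • Affine.Point.some x y h = - Affine.Point.some x y h := by
        have h4 := add_zsmul (Affine.Point.some x y h) 4 1
        have h5 : (4 + 1 : ℤ) • Affine.Point.some x y h = 0 := hP5'
        rw [h5, one_zsmul] at h4
        exact eq_neg_of_add_eq_zero_left h4.symm
      rw [h4P, FA_S51_xc_neg] at hx
      rw [← hx]
      rfl
  obtain ⟨s₀, hs₀⟩ := FA_S51_descend _ hfix
  rw [← hs₀, FA_S51_c4_baseChange, FA_S51_Δ_baseChange] at hrel
  refine ⟨s₀, ?_, ?_⟩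
  · intro h0
    apply hs0
    rw [← hs₀, h0, map_zero]
  · apply (algebraMap ℚ (AlgebraicClosure ℚ)).injective
    have e1 : (W.map (Int.castRingHom ℚ)).c₄ = ((W.c₄ : ℤ) : ℚ) := by
      rw [WeierstrassCurve.map_c₄]; rfl
    have e2 : (W.map (Int.castRingHom ℚ)).Δ = ((W.Δ : ℤ) : ℚ) := by
      rw [WeierstrassCurve.map_Δ]; rfl
    rw [e1, e2] at hrel
    simp only [map_mul, map_pow, map_add, map_ofNat]
    exact hrel

end Fermat.Agent.S51
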