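import Mathlib
import Fermat.Agent.S51.Interface

/-!
# S51, track S: the exceptional `j`-invariants are not semistable
-/

set_option autoImplicit false

open WeierstrassCurve

namespace Fermat.Agent.S51

/-- `5`-adic obstruction: `A c³ = B Δ` with `5 ∤ A`, `5 ∣ B`, `125 ∤ B` forces `5 ∣ c` and
`5 ∣ Δ`. -/
theorem FA_S51_five_dvd (c Δ A B : ℤ) (h : A * c ^ 3 = B * Δ) (hA : ¬ (5 : ℤ) ∣ A)
    (hB5 : (5 : ℤ) ∣ B) (hB125 : ¬ (125 : ℤ) ∣ B) : (5 : ℤ) ∣ c ∧ (5 : ℤ) ∣ Δ := by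
  have hp : Prime (5 : ℤ) := by
    rw [Int.prime_iff_natAbs_prime]; norm_num
  have h1 : (5 : ℤ) ∣ A * c ^ 3 := by rw [h]; exact Dvd.dvd.mul_right hB5 _
  have h2 : (5 : ℤ) ∣ c ^ 3 := (hp.dvd_or_dvd h1).resolve_left hA
  have h3 : (5 : ℤ) ∣ c := hp.dvd_of_dvd_pow h2
  refine ⟨h3, ?_⟩
  by_contra hΔ
  obtain ⟨k, rfl⟩ := h3
  have h4 : (125 : ℤ) ∣ B * Δ := ⟨A * k ^ 3, by rw [← h]; ring⟩
  have hcop : IsCoprime (125 : ℤ) Δ := by
    have : IsCoprime (5 : ℤ) Δ := (Prime.coprime_iff_not_dvd hp).mpr hΔ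
    have h125 : (125 : ℤ) = 5 ^ 3 := by norm_num
    rw [h125]
    exact this.pow_left
  exact hB125 (hcop.dvd_of_dvd_mul_right h4)

theorem FA_S51_c4_ne_zero (W : WeierstrassCurve ℤ) (_hΔ : W.Δ ≠ 0) (hW : W.IsSemistableModel) :
    W.c₄ ≠ 0 := by
  intro hc4
  have hunit : W.Δ.natAbs = 1 := by
    by_contra hne
    obtain ⟨p, hp, hpd⟩ := Nat.exists_prime_and_dvd hne
    have hpΔ : (p : ℤ) ∣ W.Δ := Int.natCast_dvd.mpr hpd
    exact hW p hp hpΔ (by rw [hc4]; exact dvd_zero _)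
  have hrel := W.c_relation
  rw [hc4] at hrel
  rcases Int.natAbs_eq W.Δ with h | h
  · rw [hunit] at h
    have h1 : W.c₆ ^ 2 = -1728 := by rw [h] at hrel; push_cast at hrel; linear_combination hrel
    nlinarith [sq_nonneg W.c₆]
  · rw [hunit] at h
    have h1 : W.c₆ * W.c₆ = 1728 := by rw [h] at hrel; push_cast at hrel; linear_combination hrel
    have h2 : W.c₆.natAbs * W.c₆.natAbs = 1728 := by
      have := congrArg Int.natAbs h1
      rwa [Int.natAbs_mul] at this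
    have h3 : W.c₆.natAbs ≤ 41 ∨ 42 ≤ W.c₆.natAbs := by omega
    rcases h3 with h3 | h3
    · have := Nat.mul_le_mul h3 h3
      omega
    · have := Nat.mul_le_mul h3 h3
      omega

/-- TRACK S. -/
theorem FA_S51_semistable : FA_S51_Target_Semistable := by
  intro W hΔ hW
  refine ⟨FA_S51_c4_ne_zero W hΔ hW, ?_⟩
  intro s hs heq
  have key : ∀ A B : ℤ, (A : ℚ) * (W.c₄ : ℚ) ^ 3 = (B : ℚ) * (W.Δ : ℚ) → ¬ (5 : ℤ) ∣ A →
      (5 : ℤ) ∣ B → ¬ (125 : ℤ) ∣ B → False := by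
    intro A B h hA hB5 hB125
    have h' : A * W.c₄ ^ 3 = B * W.Δ := by exact_mod_cast h
    obtain ⟨h5c, h5Δ⟩ := FA_S51_five_dvd _ _ A B h' hA hB5 hB125
    exact hW 5 (by norm_num) (by exact_mod_cast h5Δ) (by exact_mod_cast h5c)
  rcases hs with rfl | rfl | rfl | rfl
  · refine key (-2) 25 ?_ (by norm_num) (by norm_num) (by norm_num)
    push_cast
    linear_combination heq / 5
  · refine key (-32) 121945 ?_ (by norm_num) (by norm_num) (by norm_num)
    push_cast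
    linear_combination (64 / 25) * heq
  · refine key (-8) 349938025 ?_ (by norm_num) (by norm_num) (by norm_num)
    push_cast
    linear_combination heq / 5
  · refine key 32768 46969655 ?_ (by norm_num) (by norm_num) (by norm_num)
    push_cast
    linear_combination (-262144 / 25) * heq

end Fermat.Agent.S51
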