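import Mathlib
import Fermat.Agent.S51.Interface

/-!
# S51, track L: rational points of the fibre product `X₀(3) ×_j X₀(5)` from those of the quartic
model `W² = (T² − T − 1)(T² + 11T − 1)` of `X₀(15)`.

On the curve `(h+27)(h+3)³ s = (s²+10s+5)³ h` the function
`T = (3s³+39s²+105s−h²−18h)/((h+3)(1−4s−s²))` (an eta quotient) satisfies
`−T³s² + (1−9T−9T³−T⁴)s − 125T = 0`, whose discriminant in `s` is
`(T²+4T−1)² (T²−T−1)(T²+11T−1)`.
-/

set_option autoImplicit false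

namespace Fermat.Agent.S51

theorem FA_S51_sq_ne_five (x : ℚ) : x ^ 2 ≠ 5 := by
  intro hx
  have h : IsSquare (5 : ℚ) := ⟨x, by rw [← hx]; ring⟩
  rw [Rat.isSquare_iff] at h
  have h2 : ¬ IsSquare (5 : ℤ) := by
    rintro ⟨r, hr⟩
    have h3 : r.natAbs * r.natAbs = 5 := by
      have := congrArg Int.natAbs hr
      simpa [Int.natAbs_mul] using this.symm
    have h4 : r.natAbs ≤ 2 := by nlinarith
    interval_cases r.natAbs <;> omega
  exact h2 (by simpa using h.1)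

/-- The key relation between `T` and `s` on the fibre product. -/
theorem FA_S51_link_rel (h s : ℚ) (hh3 : h + 3 ≠ 0) (hs1 : 1 - 4 * s - s ^ 2 ≠ 0)
    (hF : (h + 27) * (h + 3) ^ 3 * s = (s ^ 2 + 10 * s + 5) ^ 3 * h) (T : ℚ)
    (hT : T = (3 * s ^ 3 + 39 * s ^ 2 + 105 * s - h ^ 2 - 18 * h) /
      ((h + 3) * (1 - 4 * s - s ^ 2))) :
    -T ^ 3 * s ^ 2 + (1 - 9 * T - 9 * T ^ 3 - T ^ 4) * s - 125 * T = 0 := by
  have hD : (h + 3) * (1 - 4 * s - s ^ 2) ≠ 0 := mul_ne_zero hh3 hs1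
  have hTD : T * ((h + 3) * (1 - 4 * s - s ^ 2)) =
      3 * s ^ 3 + 39 * s ^ 2 + 105 * s - h ^ 2 - 18 * h := by
    rw [hT]; exact div_mul_cancel₀ _ hD
  have key : (-T ^ 3 * s ^ 2 + (1 - 9 * T - 9 * T ^ 3 - T ^ 4) * s - 125 * T) *
      ((h + 3) * (1 - 4 * s - s ^ 2)) ^ 4 = 0 := by
    obtain ⟨D, hDdef⟩ : ∃ D : ℚ, D = (h + 3) * (1 - 4 * s - s ^ 2) := ⟨_, rfl⟩
    obtain ⟨N, hNdef⟩ : ∃ N : ℚ, N = 3 * s ^ 3 + 39 * s ^ 2 + 105 * s - h ^ 2 - 18 * h :=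
      ⟨_, rfl⟩
    rw [← hDdef, ← hNdef] at hTD
    rw [← hDdef]
    have e1 : (-T ^ 3 * s ^ 2 + (1 - 9 * T - 9 * T ^ 3 - T ^ 4) * s - 125 * T) * D ^ 4 =
        -(T * D) ^ 3 * D * s ^ 2 + (D ^ 4 - 9 * (T * D) * D ^ 3 - 9 * (T * D) ^ 3 * D -
          (T * D) ^ 4) * s - 125 * (T * D) * D ^ 3 := by ring
    rw [e1, hTD, hDdef, hNdef]
    linear_combination (-h ^ 4 - h ^ 3 * s ^ 3 - 13 * h ^ 3 * s ^ 2 - 35 * h ^ 3 * s - 27 * h ^ 3
      - 9 * h ^ 2 * s ^ 3 - 117 * h ^ 2 * s ^ 2 - 315 * h ^ 2 * s - 189 * h ^ 2 + 216 * h * s ^ 4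
      + 1917 * h * s ^ 3 + 5481 * h * s ^ 2 + 4887 * h * s - 513 * h - 27 * s ^ 7 - 594 * s ^ 6
      - 4833 * s ^ 5 - 18468 * s ^ 4 - 32832 * s ^ 3 - 19305 * s ^ 2 + 5616 * s - 486) * hF
  rcases mul_eq_zero.mp key with h0 | h0
  · exact h0
  · exact absurd (pow_eq_zero_iff (by norm_num) |>.mp h0) hD

/-- TRACK L. -/
theorem FA_S51_x15 (hQ : FA_S51_Target_Quartic) : FA_S51_Target_X15 := by
  intro h s hh hs hF
  have hs1 : 1 - 4 * s - s ^ 2 ≠ 0 := by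
    intro h0
    apply FA_S51_sq_ne_five (s + 2)
    linear_combination -h0
  have hh3 : h + 3 ≠ 0 := by
    intro h0
    have h1 : (s ^ 2 + 10 * s + 5) ^ 3 * h = 0 := by
      rw [← hF, h0]; ring
    rcases mul_eq_zero.mp h1 with h2 | h2
    · have h3 : s ^ 2 + 10 * s + 5 = 0 := pow_eq_zero_iff (by norm_num) |>.mp h2
      apply FA_S51_sq_ne_five ((s + 5) / 2)
      linear_combination h3 / 4
    · exact hh h2
  obtain ⟨T, hT⟩ : ∃ T : ℚ, T = (3 * s ^ 3 + 39 * s ^ 2 + 105 * s - h ^ 2 - 18 * h) /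
      ((h + 3) * (1 - 4 * s - s ^ 2)) := ⟨_, rfl⟩
  have hrel := FA_S51_link_rel h s hh3 hs1 hF T hT
  have hR : T ^ 2 + 4 * T - 1 ≠ 0 := by
    intro h0
    apply FA_S51_sq_ne_five (T + 2)
    linear_combination h0
  have hW : ((-2 * T ^ 3 * s + (1 - 9 * T - 9 * T ^ 3 - T ^ 4)) / (T ^ 2 + 4 * T - 1)) ^ 2 =
      (T ^ 2 - T - 1) * (T ^ 2 + 11 * T - 1) := by
    rw [div_pow, div_eq_iff (pow_ne_zero 2 hR)]
    linear_combination (-4 * T ^ 3) * hrel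
  rcases hQ T _ hW with h0 | h2 | h12
  · rw [h0] at hrel
    exact absurd (by linear_combination hrel) hs
  · rw [h2] at hrel
    have e : (s + 10) * (8 * s + 25) = 0 := by linear_combination -hrel
    rcases mul_eq_zero.mp e with e1 | e1
    · left; linarith
    · right; right; right; linarith
  · rw [h12] at hrel
    have e : (s + 40) * (2 * s + 25) = 0 := by linear_combination 16 * hrel
    rcases mul_eq_zero.mp e with e1 | e1
    · right; right; left; linarith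
    · right; left; linarith

end Fermat.Agent.S51
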