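import Mathlib
import Fermat.Agent.S51.Interface
import Fermat.Agent.S51.X15
import Fermat.Agent.S51.Semistable
import Fermat.Agent.S51.P3
import Fermat.Agent.S51.R3
import Fermat.Agent.S51.R5

/-!
# S51: assembly. Everything except the rational points of the quartic model of `X₀(15)`.
-/

set_option autoImplicit false

open WeierstrassCurve

namespace Fermat.Agent.S51

/-- S51 from the determination of the rational points of `W² = (T²−T−1)(T²+11T−1)`. -/
theorem FA_S51_final (hQ : FA_S51_Target_Quartic) (W : WeierstrassCurve ℤ) (hΔ : W.Δ ≠ 0)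
    (hW : W.IsSemistableModel) : W.ModRepIsIrreducible 3 ∨ W.ModRepIsIrreducible 5 :=
  FA_S51_of_targets (FA_S51_x15 hQ) FA_S51_semistable FA_S51_r3 FA_S51_p3 FA_S51_r5 W hΔ hW

end Fermat.Agent.S51
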