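import Mathlib

/-!
# S51, track X (part 1): the 2-descent class lemma for `y² = x (x − 1) (x − 81)`

For a rational point `(x, y)` with `x ∉ {0, 1, 81}` we show that `x` is a square and that
`δ (x − 1)`, `δ (x − 81)` are squares for some `δ ∈ {1, −1, 5, −5}`.
-/

set_option autoImplicit false

namespace Fermat.Agent.S51

/-- If `u * v = w ^ 2` in `ℤ` with `u ≠ 0`, then `u = σ g s²`, `v = σ g t²` with `g > 0`,
`σ = ±1` and `s, t` coprime. -/
theorem FA_S51_gcd_split (u v w : ℤ) (hu : u ≠ 0) (h : u * v = w ^ 2) :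
    ∃ (g σ s t : ℤ), 0 < g ∧ (σ = 1 ∨ σ = -1) ∧ IsCoprime s t ∧
      u = σ * g * s ^ 2 ∧ v = σ * g * t ^ 2 := by
  have hg : 0 < Int.gcd u v := Int.gcd_pos_of_ne_zero_left v hu
  obtain ⟨g, u', v', hgpos, hcop, rfl, rfl⟩ := Int.exists_gcd_one' hg
  have hg0 : (g : ℤ) ≠ 0 := by exact_mod_cast hgpos.ne'
  have hgpos' : (0 : ℤ) < g := by exact_mod_cast hgpos
  have hu'0 : u' ≠ 0 := by
    rintro rfl
    exact hu (by simp)
  have hdvd : (g : ℤ) ∣ w := by
    rw [← Int.pow_dvd_pow_iff (n := 2) (by norm_num), ← h]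
    exact ⟨u' * v', by ring⟩
  obtain ⟨w', rfl⟩ := hdvd
  have h1 : u' * v' = w' ^ 2 := by
    have h2 : (g : ℤ) ^ 2 * (u' * v') = (g : ℤ) ^ 2 * w' ^ 2 := by linear_combination h
    exact mul_left_cancel₀ (pow_ne_zero 2 hg0) h2
  have hcop' : IsCoprime u' v' := Int.isCoprime_iff_gcd_eq_one.mpr hcop
  obtain ⟨s, hs⟩ := Int.sq_of_isCoprime hcop' h1
  obtain ⟨t, ht⟩ := Int.sq_of_isCoprime hcop'.symm (by rw [mul_comm]; exact h1)
  have hs0 : s ≠ 0 := by
    rintro rfl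
    rcases hs with hs | hs <;> exact hu'0 (by simpa using hs)
  have key : ∀ a b : ℤ, IsCoprime (a ^ 2) (b ^ 2) → IsCoprime a b := fun a b hab =>
    (IsCoprime.pow_iff (by norm_num) (by norm_num)).mp hab
  rcases hs with hs | hs <;> rcases ht with ht | ht
  · refine ⟨g, 1, s, t, hgpos', Or.inl rfl, key s t (by rw [← hs, ← ht]; exact hcop'), ?_, ?_⟩
    · rw [hs]; ring
    · rw [ht]; ring
  · -- u' = s², v' = -t²: forces t = 0
    have ht0 : t = 0 := by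
      have h3 : (s * t) ^ 2 + w' ^ 2 = 0 := by rw [← h1, hs, ht]; ring
      have h4 : (s * t) ^ 2 = 0 := by nlinarith [sq_nonneg (s * t), sq_nonneg w']
      have h5 : s * t = 0 := by simpa using h4
      rcases mul_eq_zero.mp h5 with h6 | h6
      · exact absurd h6 hs0
      · exact h6
    subst ht0
    refine ⟨g, 1, s, 0, hgpos', Or.inl rfl, key s 0 (by
      have : v' = (0:ℤ) ^ 2 := by rw [ht]; ring
      rw [← hs, ← this]; exact hcop'), ?_, ?_⟩
    · rw [hs]; ring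
    · rw [ht]; ring
  · -- u' = -s², v' = t²: forces t = 0
    have ht0 : t = 0 := by
      have h3 : (s * t) ^ 2 + w' ^ 2 = 0 := by rw [← h1, hs, ht]; ring
      have h4 : (s * t) ^ 2 = 0 := by nlinarith [sq_nonneg (s * t), sq_nonneg w']
      have h5 : s * t = 0 := by simpa using h4
      rcases mul_eq_zero.mp h5 with h6 | h6
      · exact absurd h6 hs0
      · exact h6
    subst ht0
    refine ⟨g, -1, s, 0, hgpos', Or.inr rfl, key s 0 (by
      have hc : IsCoprime (-u') v' := hcop'.neg_left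
      have h7 : -u' = s ^ 2 := by rw [hs]; ring
      have : v' = (0:ℤ) ^ 2 := by rw [ht]
      rw [← h7, ← this]; exact hc), ?_, ?_⟩
    · rw [hs]; ring
    · rw [ht]; ring
  · refine ⟨g, -1, s, t, hgpos', Or.inr rfl, key s t (by
      have hc : IsCoprime (-u') (-v') := hcop'.neg_left.neg_right
      have h7 : -u' = s ^ 2 := by rw [hs]; ring
      have h8 : -v' = t ^ 2 := by rw [ht]; ring
      rw [← h7, ← h8]; exact hc), ?_, ?_⟩
    · rw [hs]; ring
    · rw [ht]; ring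

/-- Squares modulo `8`. -/
theorem FA_S51_sq_mod8 (z : ℤ) :
    (z % 2 = 1 ∧ z ^ 2 % 8 = 1) ∨ (z % 2 = 0 ∧ (z ^ 2 % 8 = 0 ∨ z ^ 2 % 8 = 4)) := by
  have h8 : z % 8 = 0 ∨ z % 8 = 1 ∨ z % 8 = 2 ∨ z % 8 = 3 ∨ z % 8 = 4 ∨ z % 8 = 5 ∨
      z % 8 = 6 ∨ z % 8 = 7 := by omega
  have hsq : z ^ 2 % 8 = (z % 8) ^ 2 % 8 := by
    rw [pow_two, Int.mul_emod, ← pow_two]
  rcases h8 with h | h | h | h | h | h | h | h <;> rw [h] at hsq <;> norm_num at hsq <;> omega

/-- Squares modulo `3`. -/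
theorem FA_S51_sq_mod3 (z : ℤ) :
    (z % 3 = 0 ∧ z ^ 2 % 3 = 0) ∨ (z % 3 ≠ 0 ∧ z ^ 2 % 3 = 1) := by
  have h3 : z % 3 = 0 ∨ z % 3 = 1 ∨ z % 3 = 2 := by omega
  have hsq : z ^ 2 % 3 = (z % 3) ^ 2 % 3 := by
    rw [pow_two, Int.mul_emod, ← pow_two]
  rcases h3 with h | h | h <;> rw [h] at hsq <;> norm_num at hsq <;> omega

/-- Coprime integers are not both divisible by `n > 1`. -/
theorem FA_S51_coprime_mod (a b n : ℤ) (hn : 1 < n) (h : IsCoprime a b) :
    ¬ (a % n = 0 ∧ b % n = 0) := by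
  rintro ⟨ha, hb⟩
  obtain ⟨x, y, hxy⟩ := h
  have h1 : n ∣ 1 := by
    rw [← hxy]
    exact dvd_add (dvd_mul_of_dvd_right (Int.dvd_of_emod_eq_zero ha) x)
      (dvd_mul_of_dvd_right (Int.dvd_of_emod_eq_zero hb) y)
  have h2 := Int.le_of_dvd one_pos h1
  omega

end Fermat.Agent.S51
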