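import Mathlib
import Fermat.Agent.S51.DescentClass

/-!
# S51, track X (part 2): the integer form of the class lemma.
-/

set_option autoImplicit false

namespace Fermat.Agent.S51

theorem FA_S51_dvd81 (g : ℤ) (hg : 0 < g) (h : g ∣ 81) :
    g = 1 ∨ g = 3 ∨ g = 9 ∨ g = 27 ∨ g = 81 := by
  have hle := Int.le_of_dvd (by norm_num) h
  obtain ⟨k, hk⟩ := h
  interval_cases g <;> omega

theorem FA_S51_dvd80 (g : ℤ) (hg : 0 < g) (h : g ∣ 80) :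
    g = 1 ∨ g = 2 ∨ g = 4 ∨ g = 5 ∨ g = 8 ∨ g = 10 ∨ g = 16 ∨ g = 20 ∨ g = 40 ∨ g = 80 := by
  have hle := Int.le_of_dvd (by norm_num) h
  obtain ⟨k, hk⟩ := h
  interval_cases g <;> omega

/-- Step 1: the numerator is a square. -/
theorem FA_S51_class_num (m e w : ℤ) (hcop : IsCoprime m e) (hm : 0 < m)
    (h : m * ((m - e ^ 2) * (m - 81 * e ^ 2)) = w ^ 2) :
    ∃ a k : ℤ, m = a ^ 2 ∧ (m - e ^ 2) * (m - 81 * e ^ 2) = k ^ 2 := by
  obtain ⟨g, σ, s, t, hg, hσ, hst, hu, hv⟩ := FA_S51_gcd_split m _ w hm.ne' h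
  -- σ = 1
  have hσ1 : σ = 1 := by
    rcases hσ with rfl | rfl
    · rfl
    · exfalso
      have : 0 ≤ g * s ^ 2 := mul_nonneg hg.le (sq_nonneg s)
      nlinarith
  subst hσ1
  -- g ∣ 81
  have hgm : g ∣ m := ⟨s ^ 2, by rw [hu]; ring⟩
  have hgv : g ∣ (m - e ^ 2) * (m - 81 * e ^ 2) := ⟨t ^ 2, by rw [hv]; ring⟩
  have hge : IsCoprime g e := hcop.of_isCoprime_of_dvd_left hgm
  have hg81 : g ∣ 81 := by
    have h1 : g ∣ 81 * e ^ 4 := by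
      have h2 : 81 * e ^ 4 = (m - e ^ 2) * (m - 81 * e ^ 2) - m * (m - 82 * e ^ 2) := by ring
      rw [h2]
      exact dvd_sub hgv (dvd_mul_of_dvd_left hgm _)
    exact IsCoprime.dvd_of_dvd_mul_right (IsCoprime.pow_right hge) h1
  have hs3 := FA_S51_sq_mod3 s
  have he3 := FA_S51_sq_mod3 e
  have ht3 := FA_S51_sq_mod3 t
  have hst3 := FA_S51_coprime_mod s t 3 (by norm_num) hst
  have hme3 := FA_S51_coprime_mod m e 3 (by norm_num) hcop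
  have hSE : (s ^ 2 * e ^ 2) % 3 = ((s ^ 2 % 3) * (e ^ 2 % 3)) % 3 := Int.mul_emod _ _ _
  rcases FA_S51_dvd81 g hg hg81 with rfl | rfl | rfl | rfl | rfl
  · exact ⟨s, t, by rw [hu]; ring, by rw [hv]; ring⟩
  · exfalso
    have hm3 : m % 3 = 0 := by omega
    have heq : t ^ 2 = 3 * (s ^ 2) ^ 2 - 82 * (s ^ 2 * e ^ 2) + 27 * (e ^ 2) ^ 2 := by
      have h3 : (3:ℤ) * t ^ 2 = 3 * (3 * (s ^ 2) ^ 2 - 82 * (s ^ 2 * e ^ 2) + 27 * (e ^ 2) ^ 2) := by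
        rw [hu] at hv
        linear_combination -hv
      exact mul_left_cancel₀ (by norm_num) h3
    generalize (s ^ 2) ^ 2 = S4 at heq
    generalize (e ^ 2) ^ 2 = E4 at heq
    generalize s ^ 2 * e ^ 2 = P at heq hSE
    rcases hs3 with ⟨h1, h2⟩ | ⟨h1, h2⟩ <;> rcases he3 with ⟨h3, h4⟩ | ⟨h3, h4⟩ <;>
      rcases ht3 with ⟨h5, h6⟩ | ⟨h5, h6⟩ <;> rw [h2, h4] at hSE <;> norm_num at hSE <;> omega
  · exact ⟨3 * s, 3 * t, by rw [hu]; ring, by rw [hv]; ring⟩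
  · exfalso
    have hm3 : m % 3 = 0 := by omega
    have heq : t ^ 2 = 27 * (s ^ 2) ^ 2 - 82 * (s ^ 2 * e ^ 2) + 3 * (e ^ 2) ^ 2 := by
      have h3 : (27:ℤ) * t ^ 2 =
          27 * (27 * (s ^ 2) ^ 2 - 82 * (s ^ 2 * e ^ 2) + 3 * (e ^ 2) ^ 2) := by
        rw [hu] at hv
        linear_combination -hv
      exact mul_left_cancel₀ (by norm_num) h3
    generalize (s ^ 2) ^ 2 = S4 at heq
    generalize (e ^ 2) ^ 2 = E4 at heq
    generalize s ^ 2 * e ^ 2 = P at heq hSE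
    rcases hs3 with ⟨h1, h2⟩ | ⟨h1, h2⟩ <;> rcases he3 with ⟨h3, h4⟩ | ⟨h3, h4⟩ <;>
      rcases ht3 with ⟨h5, h6⟩ | ⟨h5, h6⟩ <;> rw [h2, h4] at hSE <;> norm_num at hSE <;> omega
  · exact ⟨9 * s, 9 * t, by rw [hu]; ring, by rw [hv]; ring⟩

/-- Step 2: the classes of `a² − e²` and `a² − 81 e²`. -/
theorem FA_S51_class_pair (a e k : ℤ) (hcop : IsCoprime a e)
    (h2 : a ^ 2 - e ^ 2 ≠ 0)
    (h : (a ^ 2 - e ^ 2) * (a ^ 2 - 81 * e ^ 2) = k ^ 2) :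
    ∃ δ s t : ℤ, (δ = 1 ∨ δ = -1 ∨ δ = 5 ∨ δ = -5) ∧
      δ * (a ^ 2 - e ^ 2) = s ^ 2 ∧ δ * (a ^ 2 - 81 * e ^ 2) = t ^ 2 := by
  obtain ⟨g, σ, s, t, hg, hσ, hst, hu, hv⟩ := FA_S51_gcd_split _ _ k h2 h
  have hgu : g ∣ a ^ 2 - e ^ 2 := ⟨σ * s ^ 2, by rw [hu]; ring⟩
  have hgv : g ∣ a ^ 2 - 81 * e ^ 2 := ⟨σ * t ^ 2, by rw [hv]; ring⟩
  have hue : IsCoprime (a ^ 2 - e ^ 2) e := by
    have h1 : IsCoprime (a ^ 2) e := IsCoprime.pow_left hcop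
    have h3 := h1.add_mul_left_left (-e)
    have h4 : a ^ 2 + e * -e = a ^ 2 - e ^ 2 := by ring
    rwa [h4] at h3
  have hge : IsCoprime g e := hue.of_isCoprime_of_dvd_left hgu
  have hg80 : g ∣ 80 := by
    have h1 : g ∣ 80 * e ^ 2 := by
      have h3 : 80 * e ^ 2 = (a ^ 2 - e ^ 2) - (a ^ 2 - 81 * e ^ 2) := by ring
      rw [h3]
      exact dvd_sub hgu hgv
    exact IsCoprime.dvd_of_dvd_mul_right (IsCoprime.pow_right hge) h1
  have ha8 := FA_S51_sq_mod8 a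
  have he8 := FA_S51_sq_mod8 e
  have hs8 := FA_S51_sq_mod8 s
  have ht8 := FA_S51_sq_mod8 t
  have hst2 := FA_S51_coprime_mod s t 2 (by norm_num) hst
  have hae2 := FA_S51_coprime_mod a e 2 (by norm_num) hcop
  rcases FA_S51_dvd80 g hg hg80 with rfl | rfl | rfl | rfl | rfl | rfl | rfl | rfl | rfl | rfl
  · -- g = 1
    rcases hσ with rfl | rfl
    · exact ⟨1, s, t, by simp, by rw [hu]; ring, by rw [hv]; ring⟩
    · exact ⟨-1, s, t, by simp, by rw [hu]; ring, by rw [hv]; ring⟩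
  · exfalso
    rcases hσ with rfl | rfl <;> omega
  · -- g = 4
    rcases hσ with rfl | rfl
    · exact ⟨1, 2 * s, 2 * t, by simp, by rw [hu]; ring, by rw [hv]; ring⟩
    · exact ⟨-1, 2 * s, 2 * t, by simp, by rw [hu]; ring, by rw [hv]; ring⟩
  · -- g = 5
    rcases hσ with rfl | rfl
    · exact ⟨5, 5 * s, 5 * t, by simp, by rw [hu]; ring, by rw [hv]; ring⟩
    · exact ⟨-5, 5 * s, 5 * t, by simp, by rw [hu]; ring, by rw [hv]; ring⟩
  · exfalso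
    rcases hσ with rfl | rfl <;> omega
  · exfalso
    rcases hσ with rfl | rfl <;> omega
  · -- g = 16
    rcases hσ with rfl | rfl
    · exact ⟨1, 4 * s, 4 * t, by simp, by rw [hu]; ring, by rw [hv]; ring⟩
    · exact ⟨-1, 4 * s, 4 * t, by simp, by rw [hu]; ring, by rw [hv]; ring⟩
  · -- g = 20
    rcases hσ with rfl | rfl
    · exact ⟨5, 10 * s, 10 * t, by simp, by rw [hu]; ring, by rw [hv]; ring⟩
    · exact ⟨-5, 10 * s, 10 * t, by simp, by rw [hu]; ring, by rw [hv]; ring⟩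
  · exfalso
    rcases hσ with rfl | rfl <;> omega
  · -- g = 80
    rcases hσ with rfl | rfl
    · exact ⟨5, 20 * s, 20 * t, by simp, by rw [hu]; ring, by rw [hv]; ring⟩
    · exact ⟨-5, 20 * s, 20 * t, by simp, by rw [hu]; ring, by rw [hv]; ring⟩

/-- The integer form of the class lemma. -/
theorem FA_S51_class_int (m e w : ℤ) (hcop : IsCoprime m e) (he : e ≠ 0) (hm0 : m ≠ 0)
    (hm1 : m ≠ e ^ 2) (h : m * ((m - e ^ 2) * (m - 81 * e ^ 2)) = w ^ 2) :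
    ∃ a δ s t : ℤ, m = a ^ 2 ∧ (δ = 1 ∨ δ = -1 ∨ δ = 5 ∨ δ = -5) ∧
      δ * (m - e ^ 2) = s ^ 2 ∧ δ * (m - 81 * e ^ 2) = t ^ 2 := by
  have hm : 0 < m := by
    by_contra hneg
    have hm' : m < 0 := lt_of_le_of_ne (not_lt.mp hneg) hm0
    have he2 : 0 < e ^ 2 := by positivity
    have h2 : m - e ^ 2 < 0 := by linarith
    have h3 : m - 81 * e ^ 2 < 0 := by linarith
    have h4 : 0 < (m - e ^ 2) * (m - 81 * e ^ 2) := mul_pos_of_neg_of_neg h2 h3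
    have h5 : m * ((m - e ^ 2) * (m - 81 * e ^ 2)) < 0 := mul_neg_of_neg_of_pos hm' h4
    nlinarith [sq_nonneg w]
  obtain ⟨a, k, rfl, hk⟩ := FA_S51_class_num m e w hcop hm h
  have hcop' : IsCoprime a e := (IsCoprime.pow_left_iff (by norm_num)).mp hcop
  obtain ⟨δ, s, t, hδ, hs, ht⟩ := FA_S51_class_pair a e k hcop' (sub_ne_zero.mpr hm1) hk
  exact ⟨a, δ, s, t, rfl, hδ, hs, ht⟩

/-- The class lemma for a fraction `m / d` in lowest terms. -/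
theorem FA_S51_class_aux (m d : ℤ) (y : ℚ) (hd : 0 < d) (hcop : IsCoprime m d)
    (h : y ^ 2 = ((m : ℚ) / d) * ((m : ℚ) / d - 1) * ((m : ℚ) / d - 81))
    (h0 : m ≠ 0) (h1 : m ≠ d) :
    ∃ a e δ s t : ℤ, e ≠ 0 ∧ d = e ^ 2 ∧ m = a ^ 2 ∧ (δ = 1 ∨ δ = -1 ∨ δ = 5 ∨ δ = -5) ∧
      δ * (m - e ^ 2) = s ^ 2 ∧ δ * (m - 81 * e ^ 2) = t ^ 2 := by
  have hd0 : (d : ℚ) ≠ 0 := by exact_mod_cast hd.ne'
  have hsq : IsSquare (((d * (m * ((m - d) * (m - 81 * d))) : ℤ)) : ℚ) := by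
    refine ⟨y * d ^ 2, ?_⟩
    push_cast
    have h2 : y * (d : ℚ) ^ 2 * (y * (d : ℚ) ^ 2) = y ^ 2 * (d : ℚ) ^ 4 := by ring
    rw [h2, h]
    field_simp
  rw [Rat.isSquare_intCast_iff] at hsq
  obtain ⟨z, hz⟩ := hsq
  have hz' : d * (m * ((m - d) * (m - 81 * d))) = z ^ 2 := by rw [hz]; ring
  have hcopN : IsCoprime d (m * ((m - d) * (m - 81 * d))) := by
    have h1 : IsCoprime d m := hcop.symm
    have h2 : IsCoprime d (m - d) := by
      have h3 := h1.add_mul_left_right (-1)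
      have e : m + d * -1 = m - d := by ring
      rwa [e] at h3
    have h3 : IsCoprime d (m - 81 * d) := by
      have h4 := h1.add_mul_left_right (-81)
      have e : m + d * -81 = m - 81 * d := by ring
      rwa [e] at h4
    exact h1.mul_right (h2.mul_right h3)
  obtain ⟨g, σ, s, t, hg, hσ, hst, hu, hv⟩ := FA_S51_gcd_split _ _ z hd.ne' hz'
  have hg1 : g = 1 := by
    have hgu : g ∣ d := ⟨σ * s ^ 2, by rw [hu]; ring⟩
    have hgv : g ∣ m * ((m - d) * (m - 81 * d)) := ⟨σ * t ^ 2, by rw [hv]; ring⟩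
    have hunit := hcopN.isUnit_of_dvd' hgu hgv
    rcases Int.isUnit_iff.mp hunit with h3 | h3
    · exact h3
    · omega
  subst hg1
  have hσ1 : σ = 1 := by
    rcases hσ with rfl | rfl
    · rfl
    · exfalso
      have : 0 ≤ s ^ 2 := sq_nonneg s
      nlinarith
  subst hσ1
  have hde : d = s ^ 2 := by rw [hu]; ring
  have hs0 : s ≠ 0 := by
    rintro rfl
    rw [hde] at hd
    norm_num at hd
  have hN : m * ((m - s ^ 2) * (m - 81 * s ^ 2)) = t ^ 2 := by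
    rw [← hde, hv]; ring
  have hcop2 : IsCoprime m s := by
    rw [hde] at hcop
    exact (IsCoprime.pow_right_iff (by norm_num)).mp hcop
  obtain ⟨a, δ, s', t', hma, hδ, hs', ht'⟩ :=
    FA_S51_class_int m s t hcop2 hs0 h0 (by rw [← hde]; exact h1) hN
  exact ⟨a, s, δ, s', t', hs0, hde, hma, hδ, hs', ht'⟩

/-- **Class lemma.** For a rational point `(x, y)` on `y² = x (x − 1) (x − 81)` with `x ≠ 0, 1`,
`x` is a square and `δ (x − 1)`, `δ (x − 81)` are squares for some `δ ∈ {1, −1, 5, −5}`. -/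
theorem FA_S51_class (x y : ℚ) (h : y ^ 2 = x * (x - 1) * (x - 81)) (h0 : x ≠ 0) (h1 : x ≠ 1) :
    IsSquare x ∧ ∃ δ : ℚ, (δ = 1 ∨ δ = -1 ∨ δ = 5 ∨ δ = -5) ∧
      IsSquare (δ * (x - 1)) ∧ IsSquare (δ * (x - 81)) := by
  have hdpos : (0 : ℤ) < (x.den : ℤ) := by exact_mod_cast x.den_pos
  have hx : ((x.num : ℤ) : ℚ) / ((x.den : ℤ) : ℚ) = x := by
    push_cast
    exact Rat.num_div_den x
  have hm0 : x.num ≠ 0 := by simpa using h0
  have hm1 : x.num ≠ (x.den : ℤ) := by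
    intro h2
    apply h1
    rw [← hx, h2]
    exact div_self (by exact_mod_cast hdpos.ne')
  obtain ⟨a, e, δ, s, t, he, hde, hma, hδ, hs, ht⟩ :=
    FA_S51_class_aux x.num x.den y hdpos (Rat.isCoprime_num_den x) (by rw [hx]; exact h) hm0 hm1
  have he' : (e : ℚ) ≠ 0 := by exact_mod_cast he
  have hxe : x = (a : ℚ) ^ 2 / (e : ℚ) ^ 2 := by
    rw [← hx, hde, hma]; push_cast; ring
  have hs' : (δ : ℚ) * ((a : ℚ) ^ 2 - (e : ℚ) ^ 2) = (s : ℚ) ^ 2 := by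
    rw [hma] at hs; exact_mod_cast hs
  have ht' : (δ : ℚ) * ((a : ℚ) ^ 2 - 81 * (e : ℚ) ^ 2) = (t : ℚ) ^ 2 := by
    rw [hma] at ht; exact_mod_cast ht
  refine ⟨⟨(a : ℚ) / e, ?_⟩, (δ : ℚ), ?_, ⟨(s : ℚ) / e, ?_⟩, ⟨(t : ℚ) / e, ?_⟩⟩
  · rw [hxe]; field_simp
  · rcases hδ with rfl | rfl | rfl | rfl <;> simp
  · rw [hxe]
    field_simp
    linear_combination hs'
  · rw [hxe]
    field_simp
    linear_combination ht'

end Fermat.Agent.S51
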