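import Mathlib
import Fermat.Agent.S51.DescentClassInt

/-!
# S51, track X (part 3): infinite descent.  The curve `y² = x (x − 1) (x − 81)` has no rational
point other than the 2-torsion, and `v² = u (u − 16) (u + 9)` (curve `15a`) has exactly the eight
obvious rational points.
-/

set_option autoImplicit false

namespace Fermat.Agent.S51

/-- From a rational `x` with `x`, `x − 1`, `x − 81` squares to integer data. -/
theorem FA_S51_sigma_int (x : ℚ) (h0 : IsSquare x) (h1 : IsSquare (x - 1))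
    (h81 : IsSquare (x - 81)) :
    ∃ A e B C : ℤ, 0 < A ∧ 0 < e ∧ 0 < B ∧ 0 ≤ C ∧ A ^ 2 = B ^ 2 + e ^ 2 ∧
      A ^ 2 = C ^ 2 + 81 * e ^ 2 ∧ x.num = A ^ 2 := by
  have hx81 : 81 ≤ x := by
    obtain ⟨t, ht⟩ := h81
    nlinarith [mul_self_nonneg t]
  have hxpos : 0 < x := by linarith
  have hnum : 0 < x.num := Rat.num_pos.mpr hxpos
  obtain ⟨⟨A₀, hA₀⟩, ⟨e₀, he₀⟩⟩ := Rat.isSquare_iff.mp h0
  have hA : x.num = |A₀| ^ 2 := by rw [sq_abs, hA₀]; ring
  have hApos : 0 < |A₀| := by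
    apply abs_pos.mpr
    rintro rfl
    rw [hA₀] at hnum
    simp at hnum
  have he0 : 0 < e₀ := by
    rcases Nat.eq_zero_or_pos e₀ with h | h
    · subst h
      simp at he₀
    · exact h
  have he : (x.den : ℤ) = (e₀ : ℤ) ^ 2 := by rw [he₀]; push_cast; ring
  have hepos : (0 : ℤ) < (e₀ : ℤ) := by exact_mod_cast he0
  have he' : ((e₀ : ℤ) : ℚ) ≠ 0 := by exact_mod_cast hepos.ne'
  have hx : x = ((|A₀| : ℤ) : ℚ) ^ 2 / ((e₀ : ℤ) : ℚ) ^ 2 := by
    have h2 := (Rat.num_div_den x).symm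
    have h3 : (x.num : ℚ) = ((|A₀| : ℤ) : ℚ) ^ 2 := by exact_mod_cast congrArg (Int.cast (R := ℚ)) hA
    have h4 : (x.den : ℚ) = ((e₀ : ℤ) : ℚ) ^ 2 := by exact_mod_cast congrArg (Int.cast (R := ℚ)) he
    rw [h3, h4] at h2
    exact h2
  -- B
  have hB : IsSquare (|A₀| ^ 2 - (e₀ : ℤ) ^ 2) := by
    rw [← Rat.isSquare_intCast_iff]
    obtain ⟨s, hs⟩ := h1
    refine ⟨s * e₀, ?_⟩
    have h5 : s * (e₀ : ℚ) * (s * (e₀ : ℚ)) = (s * s) * ((e₀ : ℤ) : ℚ) ^ 2 := by push_cast; ring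
    rw [h5, ← hs, hx]
    push_cast
    field_simp
  have hC : IsSquare (|A₀| ^ 2 - 81 * (e₀ : ℤ) ^ 2) := by
    rw [← Rat.isSquare_intCast_iff]
    obtain ⟨t, ht⟩ := h81
    refine ⟨t * e₀, ?_⟩
    have h5 : t * (e₀ : ℚ) * (t * (e₀ : ℚ)) = (t * t) * ((e₀ : ℤ) : ℚ) ^ 2 := by push_cast; ring
    rw [h5, ← ht, hx]
    push_cast
    field_simp
  obtain ⟨B₀, hB₀⟩ := hB
  obtain ⟨C₀, hC₀⟩ := hC
  have hB2 : |A₀| ^ 2 = |B₀| ^ 2 + (e₀ : ℤ) ^ 2 := by rw [sq_abs B₀]; linear_combination hB₀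
  have hC2 : |A₀| ^ 2 = |C₀| ^ 2 + 81 * (e₀ : ℤ) ^ 2 := by rw [sq_abs C₀]; linear_combination hC₀
  have hBpos : 0 < |B₀| := by
    apply abs_pos.mpr
    rintro rfl
    have h6 : (0 : ℤ) ≤ |C₀| ^ 2 := sq_nonneg _
    nlinarith
  exact ⟨|A₀|, e₀, |B₀|, |C₀|, hApos, hepos, hBpos, abs_nonneg _, hB2, hC2, hA⟩

/-- The descent step: from integer data for a point of `Σ` to a point of `Σ` with smaller
numerator. -/
theorem FA_S51_sigma_step (A e B C : ℤ) (hA : 0 < A) (he : 0 < e) (hB : 0 < B) (hC : 0 ≤ C)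
    (h1 : A ^ 2 = B ^ 2 + e ^ 2) (h2 : A ^ 2 = C ^ 2 + 81 * e ^ 2) :
    ∃ x' : ℚ, IsSquare x' ∧ IsSquare (x' - 1) ∧ IsSquare (x' - 81) ∧ x'.num < A ^ 2 := by
  have hBA : B < A := by nlinarith
  have hCA : C < A := by nlinarith
  have hA2 : 2 ≤ A := by omega
  have hAq : (0 : ℚ) < A := by exact_mod_cast hA
  have heq : (0 : ℚ) < e := by exact_mod_cast he
  have hBq : (0 : ℚ) < B := by exact_mod_cast hB
  have hCq : (0 : ℚ) ≤ C := by exact_mod_cast hC
  have hABq : (0 : ℚ) < (A : ℚ) - B := by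
    have : (B : ℚ) < A := by exact_mod_cast hBA
    linarith
  have h1q : (A : ℚ) ^ 2 = (B : ℚ) ^ 2 + (e : ℚ) ^ 2 := by exact_mod_cast h1
  have h2q : (A : ℚ) ^ 2 = (C : ℚ) ^ 2 + 81 * (e : ℚ) ^ 2 := by exact_mod_cast h2
  obtain ⟨x₂, hx₂⟩ : ∃ x₂ : ℚ, x₂ = ((A : ℚ) + C) / ((A : ℚ) - B) := ⟨_, rfl⟩
  have he2 : (e : ℚ) ^ 2 ≠ 0 := by positivity
  have hx : x₂ = ((A : ℚ) + B) * (A + C) / e ^ 2 := by
    rw [hx₂, div_eq_div_iff hABq.ne' he2]
    linear_combination (-(A : ℚ) - C) * h1q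
  have hx1 : x₂ - 1 = ((A : ℚ) + B) * (B + C) / e ^ 2 := by
    rw [hx₂, div_sub_one hABq.ne', div_eq_div_iff hABq.ne' he2]
    linear_combination (-(B : ℚ) - C) * h1q
  have hx81 : x₂ - 81 = ((A : ℚ) + C) * (B + C) / e ^ 2 := by
    rw [hx₂, div_sub' hABq.ne', div_eq_div_iff hABq.ne' he2]
    linear_combination (-(A : ℚ) - C) * h1q + ((A : ℚ) - B) * h2q
  have hx81pos : 0 < x₂ - 81 := by
    rw [hx81]; positivity
  have hy : (((A : ℚ) + B) * (A + C) * (B + C) / e ^ 3) ^ 2 = x₂ * (x₂ - 1) * (x₂ - 81) := by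
    rw [hx1, hx81, hx]
    field_simp
  obtain ⟨⟨r, hr⟩, δ, hδ, ⟨s, hs⟩, ⟨t, ht⟩⟩ :=
    FA_S51_class x₂ _ hy (by linarith) (by linarith)
  rcases hδ with rfl | rfl | rfl | rfl
  · -- δ = 1
    refine ⟨x₂, ⟨r, hr⟩, ⟨s, by simpa using hs⟩, ⟨t, by simpa using ht⟩, ?_⟩
    have h3 : x₂ = Rat.divInt (A + C) (A - B) := by
      rw [hx₂, Rat.divInt_eq_div]; push_cast; ring
    rw [h3]
    have hdvd := Rat.num_dvd (A + C) (b := A - B) (by omega)
    have hle := Int.le_of_dvd (by omega) hdvd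
    nlinarith
  · exfalso
    nlinarith [mul_self_nonneg s]
  · -- δ = 5
    have ht0 : t ≠ 0 := by
      rintro rfl
      nlinarith
    have hBC : (0 : ℚ) < (B : ℚ) + C := by linarith
    have hAC : (0 : ℚ) < (A : ℚ) + C := by linarith
    refine ⟨81 * (x₂ - 1) / (x₂ - 81), ⟨9 * s / t, ?_⟩, ⟨20 * r / t, ?_⟩, ⟨180 / t, ?_⟩, ?_⟩
    · rw [div_mul_div_comm, div_eq_div_iff hx81pos.ne' (mul_ne_zero ht0 ht0)]
      linear_combination (-81 * (x₂ - 1)) * ht + (81 * (x₂ - 81)) * hs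
    · rw [div_mul_div_comm, div_sub_one hx81pos.ne', div_eq_div_iff hx81pos.ne' (mul_ne_zero ht0 ht0)]
      linear_combination (-80 * x₂) * ht + (400 * (x₂ - 81)) * hr
    · rw [div_mul_div_comm, div_sub' hx81pos.ne', div_eq_div_iff hx81pos.ne' (mul_ne_zero ht0 ht0)]
      linear_combination (-6480 : ℚ) * ht
    · have h3 : 81 * (x₂ - 1) / (x₂ - 81) = Rat.divInt (81 * (A + B)) (A + C) := by
        rw [Rat.divInt_eq_div, hx1, hx81]
        push_cast
        field_simp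
      rw [h3]
      have hdvd := Rat.num_dvd (81 * (A + B)) (b := A + C) (by omega)
      have hle := Int.le_of_dvd (by omega) hdvd
      -- bounds: `A ≥ 162`
      have he2A : 2 * A - 1 ≤ e ^ 2 := by nlinarith
      have h9e : 9 * e ≤ A := by nlinarith
      have he18 : 18 ≤ e := by
        by_contra hlt
        have h17 : e ≤ 17 := by omega
        nlinarith [mul_nonneg (sub_nonneg.mpr h17) (sub_nonneg.mpr (show (1 : ℤ) ≤ e by omega))]
      have hA162 : 162 ≤ A := by omega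
      nlinarith
  · exfalso
    nlinarith [mul_self_nonneg s]

theorem FA_S51_sigma_empty_aux : ∀ n : ℕ, ∀ x : ℚ, x.num < n → IsSquare x → IsSquare (x - 1) →
    IsSquare (x - 81) → False := by
  intro n
  induction n with
  | zero =>
    intro x hn h0 h1 h81
    obtain ⟨A, e, B, C, hA, he, hB, hC, h1', h2', hnum⟩ := FA_S51_sigma_int x h0 h1 h81
    have : 0 < A ^ 2 := by positivity
    rw [hnum] at hn
    simp at hn
    omega
  | succ n ih =>
    intro x hn h0 h1 h81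
    obtain ⟨A, e, B, C, hA, he, hB, hC, h1', h2', hnum⟩ := FA_S51_sigma_int x h0 h1 h81
    obtain ⟨x', h0', h1'', h81', hlt⟩ := FA_S51_sigma_step A e B C hA he hB hC h1' h2'
    refine ih x' ?_ h0' h1'' h81'
    rw [hnum] at hn
    push_cast at hn
    omega

/-- No rational `x` has `x`, `x − 1`, `x − 81` all squares. -/
theorem FA_S51_sigma_empty (x : ℚ) (h0 : IsSquare x) (h1 : IsSquare (x - 1))
    (h81 : IsSquare (x - 81)) : False :=
  FA_S51_sigma_empty_aux (x.num.toNat + 1) x (by push_cast; omega) h0 h1 h81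

/-- The rational points of `y² = x (x − 1) (x − 81)` are the 2-torsion points. -/
theorem FA_S51_Ebar (x y : ℚ) (h : y ^ 2 = x * (x - 1) * (x - 81)) :
    x = 0 ∨ x = 1 ∨ x = 81 := by
  by_contra hcon
  push Not at hcon
  obtain ⟨h0, h1, h81⟩ := hcon
  obtain ⟨⟨r, hr⟩, δ, hδ, ⟨s, hs⟩, ⟨t, ht⟩⟩ := FA_S51_class x y h h0 h1
  have hr0 : r ≠ 0 := by
    rintro rfl
    exact h0 (by simpa using hr)
  have hs0 : s ≠ 0 := by
    rintro rfl
    have h2 : δ * (x - 1) = 0 := by simpa using hs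
    rcases mul_eq_zero.mp h2 with h3 | h3
    · rcases hδ with rfl | rfl | rfl | rfl <;> norm_num at h3
    · exact h1 (by linarith)
  have ht0 : t ≠ 0 := by
    rintro rfl
    have h2 : δ * (x - 81) = 0 := by simpa using ht
    rcases mul_eq_zero.mp h2 with h3 | h3
    · rcases hδ with rfl | rfl | rfl | rfl <;> norm_num at h3
    · exact h81 (by linarith)
  have hx1 : x - 1 ≠ 0 := sub_ne_zero.mpr h1
  have hx81 : x - 81 ≠ 0 := sub_ne_zero.mpr h81
  rcases hδ with rfl | rfl | rfl | rfl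
  · exact FA_S51_sigma_empty x ⟨r, hr⟩ ⟨s, by simpa using hs⟩ ⟨t, by simpa using ht⟩
  · -- δ = -1 : translate by `(0, 0)` : `x' = 81 / x`
    refine FA_S51_sigma_empty (81 / x) ⟨9 / r, ?_⟩ ⟨t / r, ?_⟩ ⟨9 * s / r, ?_⟩
    · rw [div_mul_div_comm, div_eq_div_iff h0 (mul_ne_zero hr0 hr0)]
      linear_combination (-81 : ℚ) * hr
    · rw [div_mul_div_comm, div_sub_one h0, div_eq_div_iff h0 (mul_ne_zero hr0 hr0)]
      linear_combination (x - 81) * hr + x * ht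
    · rw [div_mul_div_comm, div_sub' h0, div_eq_div_iff h0 (mul_ne_zero hr0 hr0)]
      linear_combination (81 * (x - 1)) * hr + (81 * x) * hs
  · -- δ = 5 : `x' = 81 (x − 1) / (x − 81)`
    refine FA_S51_sigma_empty (81 * (x - 1) / (x - 81)) ⟨9 * s / t, ?_⟩ ⟨20 * r / t, ?_⟩
      ⟨180 / t, ?_⟩
    · rw [div_mul_div_comm, div_eq_div_iff hx81 (mul_ne_zero ht0 ht0)]
      linear_combination (-81 * (x - 1)) * ht + (81 * (x - 81)) * hs
    · rw [div_mul_div_comm, div_sub_one hx81, div_eq_div_iff hx81 (mul_ne_zero ht0 ht0)]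
      linear_combination (-80 * x) * ht + (400 * (x - 81)) * hr
    · rw [div_mul_div_comm, div_sub' hx81, div_eq_div_iff hx81 (mul_ne_zero ht0 ht0)]
      linear_combination (-6480 : ℚ) * ht
  · -- δ = -5 : `x' = (x − 81) / (x − 1)`
    refine FA_S51_sigma_empty ((x - 81) / (x - 1)) ⟨t / s, ?_⟩ ⟨20 / s, ?_⟩ ⟨20 * r / s, ?_⟩
    · rw [div_mul_div_comm, div_eq_div_iff hx1 (mul_ne_zero hs0 hs0)]
      linear_combination (-(x - 81)) * hs + (x - 1) * ht
    · rw [div_mul_div_comm, div_sub_one hx1, div_eq_div_iff hx1 (mul_ne_zero hs0 hs0)]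
      linear_combination (80 : ℚ) * hs
    · rw [div_mul_div_comm, div_sub' hx1, div_eq_div_iff hx1 (mul_ne_zero hs0 hs0)]
      linear_combination (80 * x) * hs + (400 * (x - 1)) * hr

/-- The rational points of `v² = u (u − 16) (u + 9)` (the elliptic curve `15a`). -/
theorem FA_S51_E15 (u v : ℚ) (h : v ^ 2 = u * (u - 16) * (u + 9)) :
    u = 0 ∨ u = 16 ∨ u = -9 ∨ u = 36 ∨ u = -4 := by
  by_cases h16 : u = 16
  · exact Or.inr (Or.inl h16)
  have hX : u - 16 ≠ 0 := sub_ne_zero.mpr h16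
  have hE := FA_S51_Ebar (u * (u + 9) / (u - 16)) (v * (u + 4) * (u - 36) / (u - 16) ^ 2) (by
    field_simp
    linear_combination ((u + 4) ^ 2 * (u - 36) ^ 2) * h)
  rcases hE with hE | hE | hE
  · rw [div_eq_zero_iff] at hE
    rcases hE with hE | hE
    · rcases mul_eq_zero.mp hE with h3 | h3
      · exact Or.inl h3
      · exact Or.inr (Or.inr (Or.inl (by linarith)))
    · exact absurd hE hX
  · rw [div_eq_one_iff_eq hX] at hE
    have h3 : (u + 4) ^ 2 = 0 := by linear_combination hE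
    have h4 : u + 4 = 0 := by simpa using h3
    exact Or.inr (Or.inr (Or.inr (Or.inr (by linarith))))
  · rw [div_eq_iff hX] at hE
    have h3 : (u - 36) ^ 2 = 0 := by linear_combination hE
    have h4 : u - 36 = 0 := by simpa using h3
    exact Or.inr (Or.inr (Or.inr (Or.inl (by linarith))))

end Fermat.Agent.S51
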