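import Mathlib
import Fermat.Agent.S51.Interface
import Fermat.Agent.S51.Descent

/-!
# S51, track X: rational points of the quartic model `W² = (T² − T − 1)(T² + 11T − 1)` of `X₀(15)`

`u = 2W + 2T² + 10T − 2`, `v = (W + T² + 5T − 19)(4T + 10) + 180` lie on the curve
`v² = u (u − 16) (u + 9)` (`15a`), whose rational points are determined in `Descent.lean`
by a complete 2-descent; and `(36 − u) T² − 5 u T + u (u + 4) / 4 = 0`.
-/

set_option autoImplicit false

namespace Fermat.Agent.S51

theorem FA_S51_quartic (T W : ℚ) (h : W ^ 2 = (T ^ 2 - T - 1) * (T ^ 2 + 11 * T - 1)) :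
    T = 0 ∨ T = 2 ∨ T = -1 / 2 := by
  obtain ⟨u, hu⟩ : ∃ u : ℚ, u = 2 * W + 2 * T ^ 2 + 10 * T - 2 := ⟨_, rfl⟩
  have hE := FA_S51_E15 u ((W + T ^ 2 + 5 * T - 19) * (4 * T + 10) + 180) (by
    rw [hu]
    linear_combination (-8 * W - 8 * T ^ 2 - 40 * T + 152) * h)
  have key : (36 - u) * T ^ 2 - 5 * u * T + u * (u + 4) / 4 = 0 := by
    rw [hu]
    linear_combination h
  rcases hE with hE | hE | hE | hE | hE <;> rw [hE] at key
  · -- u = 0
    have h2 : T ^ 2 = 0 := by linear_combination key / 36
    exact Or.inl (by simpa using h2)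
  · -- u = 16
    have h2 : (T - 2) ^ 2 = 0 := by linear_combination key / 20
    have h3 : T - 2 = 0 := by simpa using h2
    exact Or.inr (Or.inl (by linarith))
  · -- u = -9
    have h2 : (T + 1 / 2) ^ 2 = 0 := by linear_combination key / 45
    have h3 : T + 1 / 2 = 0 := by simpa using h2
    exact Or.inr (Or.inr (by linarith))
  · -- u = 36
    exact Or.inr (Or.inl (by linarith))
  · -- u = -4
    have h2 : T * (T + 1 / 2) = 0 := by linear_combination key / 40
    rcases mul_eq_zero.mp h2 with h3 | h3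
    · exact Or.inl h3
    · exact Or.inr (Or.inr (by linarith))

theorem FA_S51_Quartic : FA_S51_Target_Quartic := fun T W h => FA_S51_quartic T W h

end Fermat.Agent.S51
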